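/-
S21 (Eichler–Shimura for weight 2 and level Γ₀(N)) from S20 — INTERFACE FILE.

Definitions and statement-`Prop`s only.  Every work package of the S21 effort proves one (or a few)
of the `…Statement : Prop` definitions below in its own file `Fermat/Agent/S21/<Package>.lean`,
possibly assuming other statements as explicit hypotheses.  `Fermat/Agent/S21/Top.lean` combines
them into

  `s21_of_dim : genusFormula N ≤ finrank ℂ (CuspForm (Gamma0 N) 2) → (frozen statement S21)`.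

Conventions: `ℍ` is Mathlib's upper half-plane, `f ∣[(2 : ℤ)] δ` is Mathlib's weight-2 slash action
of `δ : SL(2, ℤ)` on functions `ℍ → ℂ`, `periodMap`, `periodHomPair`, `parabolicHoms`,
`charInvolution`, `jConjSL`, `HasEquivariantPrimitive` are the prelude's.
-/
import Fermat.Statements.S21
import Fermat.Prelude.Def_ModularCurve_GenusNumerics

set_option autoImplicit false

open UpperHalfPlane CongruenceSubgroup ModularCurve ModularCurve.Period Filter Topology
open scoped MatrixGroups ModularForm Manifold ComplexConjugate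

namespace Fermat.Agent.S21

noncomputable section

/-! ## Part A: holomorphic primitives on the upper half-plane -/

/-- `F` is a holomorphic primitive of `f` on the upper half-plane (in the form used by the
prelude's `HasEquivariantPrimitive`). -/
def IsPrim (f F : ℍ → ℂ) : Prop := ∀ τ : ℍ, HasDerivAt (F ∘ ofComplex) (f τ) ↑τ

/-- The anti-holomorphic involution `z ↦ -conj z` of the upper half-plane. -/
def jz (z : ℍ) : ℍ := ⟨-conj (z : ℂ), by simpa using z.im_pos⟩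

/-- (A1) A holomorphic function on `ℍ` that is periodic (period `h > 0`) and tends to `0` at `i∞`
has a primitive that tends to `0` at `i∞`. -/
def PrimExistsStatement : Prop :=
  ∀ (g : ℍ → ℂ) (h : ℝ), 0 < h → Function.Periodic (g ∘ ofComplex) h →
    MDifferentiable 𝓘(ℂ) 𝓘(ℂ) g → IsZeroAtImInfty g →
    ∃ G : ℍ → ℂ, IsPrim g G ∧ Tendsto G atImInfty (𝓝 0)

/-- (A2) Two primitives of the same function differ by a constant. -/
def PrimConstStatement : Prop :=
  ∀ (f F₁ F₂ : ℍ → ℂ), IsPrim f F₁ → IsPrim f F₂ → ∃ c : ℂ, ∀ z : ℍ, F₁ z - F₂ z = c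

/-- (A3) Chain rule for Möbius transformations: if `F` is a primitive of `f` then `F ∘ δ` is a
primitive of the weight-2 slash `f ∣[2] δ`. -/
def PrimSlashStatement : Prop :=
  ∀ (f F : ℍ → ℂ) (δ : SL(2, ℤ)), IsPrim f F →
    IsPrim (f ∣[(2 : ℤ)] δ) (fun w : ℍ => F (δ • w))

/-- (A4) Chain rule for `z ↦ -conj z`. -/
def PrimConjStatement : Prop :=
  ∀ (f F : ℍ → ℂ), IsPrim f F →
    IsPrim (fun z : ℍ => -conj (f (jz z))) (fun z : ℍ => conj (F (jz z)))

/-- (A5) Basic facts on `jz`: it intertwines the action of `γ` with that of `jConjSL γ`, it is an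
involution and it preserves the filter `atImInfty`. -/
def JzStatement : Prop :=
  (∀ (γ : SL(2, ℤ)) (z : ℍ), jz (γ • z) = jConjSL γ • jz z) ∧
  (∀ z : ℍ, jz (jz z) = z) ∧
  Tendsto jz atImInfty atImInfty

/-- (A6) Slashes of a weight-2 cusp form of level `Γ₀(N)` by elements of `SL(2, ℤ)`: holomorphic,
`N`-periodic, zero at `i∞`; and invariance under `Γ₀(N)`. -/
def CuspSlashStatement : Prop :=
  ∀ (N : ℕ) [NeZero N] (f : CuspForm (Gamma0 N) 2),
    (∀ δ : SL(2, ℤ), MDifferentiable 𝓘(ℂ) 𝓘(ℂ) (⇑f ∣[(2 : ℤ)] δ) ∧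
      Function.Periodic ((⇑f ∣[(2 : ℤ)] δ) ∘ ofComplex) (N : ℝ) ∧
      IsZeroAtImInfty (⇑f ∣[(2 : ℤ)] δ)) ∧
    (∀ γ : SL(2, ℤ), γ ∈ Gamma0 N → ⇑f ∣[(2 : ℤ)] γ = ⇑f)

/-! ## Part P: the period map -/

/-- (P1) Every weight-2 cusp form of level `Γ₀(N)` has an equivariant primitive in the prelude's
sense. -/
def PrimitiveStatement : Prop :=
  ∀ (N : ℕ) [NeZero N] (f : CuspForm (Gamma0 N) 2), ∃ F : ℍ → ℂ, HasEquivariantPrimitive N f F

/-- (P1') The period map can be computed with any primitive and any base point. -/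
def PeriodMapEqStatement : Prop :=
  ∀ (N : ℕ) [NeZero N] (f : CuspForm (Gamma0 N) 2) (F : ℍ → ℂ), IsPrim (⇑f) F →
    ∀ (γ : Gamma0 N) (z : ℍ),
      periodMap N f (Additive.ofMul γ) = F ((γ : SL(2, ℤ)) • z) - F z

/-- (P1'') The period map is linear. -/
def LinearStatement : Prop :=
  ∀ (N : ℕ) [NeZero N],
    (∀ f g : CuspForm (Gamma0 N) 2, periodMap N (f + g) = periodMap N f + periodMap N g) ∧
    (∀ (c : ℂ) (f : CuspForm (Gamma0 N) 2), periodMap N (c • f) = c • periodMap N f)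

/-- (T) Elements of `SL(2, ℤ)` of trace `±2` are conjugate to `± T ^ m`. -/
def TraceConjStatement : Prop :=
  ∀ γ : SL(2, ℤ), ((γ : Matrix (Fin 2) (Fin 2) ℤ).trace) ^ 2 = 4 →
    ∃ (δ : SL(2, ℤ)) (m : ℤ),
      γ = δ * ModularGroup.T ^ m * δ⁻¹ ∨ γ = -(δ * ModularGroup.T ^ m * δ⁻¹)

/-- (P2) Period homomorphisms are parabolic. -/
def ParabolicStatement : Prop :=
  ∀ (N : ℕ) [NeZero N] (f : CuspForm (Gamma0 N) 2),
    periodMap N f ∈ parabolicHoms ℂ (Gamma0 N) ℂ

/-- (M) Maximum modulus principle on `X₀(N)`: a holomorphic function on `ℍ` whose modulus is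
`Γ₀(N)`-invariant and which, at every cusp `δ ∞`, is invariant under `w ↦ w + N` and bounded,
is constant. -/
def MaxModStatement : Prop :=
  ∀ (N : ℕ) [NeZero N] (E : ℍ → ℂ), MDifferentiable 𝓘(ℂ) 𝓘(ℂ) E →
    (∀ γ : SL(2, ℤ), γ ∈ Gamma0 N → ∀ z : ℍ, ‖E (γ • z)‖ = ‖E z‖) →
    (∀ (δ : SL(2, ℤ)) (w : ℍ), E ((δ * ModularGroup.T ^ N) • w) = E (δ • w)) →
    (∀ δ : SL(2, ℤ), IsBoundedAtImInfty (fun w : ℍ => E (δ • w))) →
    ∀ z w : ℍ, E z = E w

/-- (P3) Injectivity of the Eichler–Shimura map, in the form `pm u + ι (pm v) = 0 → u = v = 0`. -/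
def InjStatement : Prop :=
  ∀ (N : ℕ) [NeZero N] (u v : CuspForm (Gamma0 N) 2),
    periodMap N u + charInvolution N ℂ ℂ (periodMap N v) = 0 → u = 0 ∧ v = 0

/-! ## Part C: the dimension of the space of parabolic homomorphisms -/

section Perm

variable {G X : Type} [Group G] [MulAction G X]

/-- The (contravariant) permutation representation of `G` on `X → ℂ`:
`(permOp g v) x = v (g • x)`; note `permOp (g * h) = permOp h ∘ₗ permOp g`. -/
def permOp (g : G) : (X → ℂ) →ₗ[ℂ] (X → ℂ) := LinearMap.funLeft ℂ ℂ (fun x => g • x)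

/-- `normOp g n = ∑ k < n, permOp (g ^ k)`. -/
def normOp (g : G) (n : ℕ) : (X → ℂ) →ₗ[ℂ] (X → ℂ) := ∑ k ∈ Finset.range n, permOp (g ^ k)

/-- Pairs `(a, b) = (c S, c T)` satisfying the linear relations forced on a parabolic cocycle `c`
by `S ^ 2 = z`, `(S * T) ^ 3 = z`, `T ^ n` parabolic. -/
def cocyclePairs (S T : G) (n : ℕ) : Submodule ℂ ((X → ℂ) × (X → ℂ)) :=
  LinearMap.ker (normOp S 2 ∘ₗ LinearMap.fst ℂ (X → ℂ) (X → ℂ)) ⊓
  LinearMap.ker (normOp T n ∘ₗ LinearMap.snd ℂ (X → ℂ) (X → ℂ)) ⊓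
  LinearMap.ker (normOp (S * T) 3 ∘ₗ
    (permOp T ∘ₗ LinearMap.fst ℂ (X → ℂ) (X → ℂ) + LinearMap.snd ℂ (X → ℂ) (X → ℂ)))

/-- Pairs `((permOp S - 1) v, (permOp T - 1) v)`: the values at `S`, `T` of coboundaries. -/
def coboundaryPairs (S T : G) : Submodule ℂ ((X → ℂ) × (X → ℂ)) :=
  LinearMap.range ((permOp (X := X) S - 1).prod (permOp (X := X) T - 1))

/-- Number of orbits of the cyclic group generated by `g` on `X` (this is `cycleCount` of the S24
interface when `X = SL(2, ℤ) ⧸ Γ₀(N)`). -/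
def orbCount (X : Type) {G : Type} [Group G] [MulAction G X] (g : G) : ℕ :=
  Nat.card (MulAction.orbitRel.Quotient (Subgroup.zpowers g) X)

end Perm

/-- (C-lin) Linear algebra on the permutation module of a transitive action of `G = ⟨S, T⟩` on a
finite set `X` on which `S ^ 2`, `(S * T) ^ 3` and `T ^ n` act trivially. -/
def LinAlgStatement : Prop :=
  ∀ (G X : Type) [Group G] [MulAction G X] [Finite X] [Nonempty X] [MulAction.IsPretransitive G X]
    (S T : G) (n : ℕ), 0 < n → Subgroup.closure {S, T} = ⊤ →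
    (∀ x : X, S ^ 2 • x = x) → (∀ x : X, (S * T) ^ 3 • x = x) → (∀ x : X, T ^ n • x = x) →
    Module.finrank ℂ ↥(cocyclePairs (X := X) S T n)
        + orbCount X S + orbCount X T + orbCount X (S * T) ≤ 2 * Nat.card X + 1 ∧
    Nat.card X ≤ Module.finrank ℂ ↥(coboundaryPairs (X := X) S T) + 1 ∧
    coboundaryPairs (X := X) S T ≤ cocyclePairs (X := X) S T n

/-- Homomorphisms `Γ → ℂ` vanishing on `Γ ∩ Par`. -/
def parHoms {G : Type} [Group G] (Γ : Subgroup G) (Par : Set G) :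
    Submodule ℂ (Additive Γ →+ ℂ) where
  carrier := {ψ | ∀ γ : Γ, (γ : G) ∈ Par → ψ (Additive.ofMul γ) = 0}
  zero_mem' := fun _ _ => rfl
  add_mem' := by
    intro φ ψ hφ hψ γ hγ
    show φ (Additive.ofMul γ) + ψ (Additive.ofMul γ) = 0
    rw [hφ γ hγ, hψ γ hγ, add_zero]
  smul_mem' := by
    intro c φ hφ γ hγ
    show c • φ (Additive.ofMul γ) = 0
    rw [hφ γ hγ, smul_zero]

/-- (C-coc) Shapiro-type cocycle attached to a parabolic homomorphism: an injective linear map from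
the parabolic homomorphisms of `Γ` to the cocycle pairs on `G ⧸ Γ`, whose image meets the
coboundary pairs trivially. -/
def CocycleStatement : Prop :=
  ∀ (G : Type) [Group G] (Γ : Subgroup G) (S T : G) (n : ℕ) (Par : Set G),
    Subgroup.closure {S, T} = ⊤ →
    (∀ g : G, g * S ^ 2 = S ^ 2 * g) → S ^ 2 ∈ Γ → S ^ 2 ∈ Par → (S * T) ^ 3 = S ^ 2 →
    (∀ g p : G, p ∈ Par → g⁻¹ * p * g ∈ Par) → T ^ n ∈ Par → (∀ g : G, g⁻¹ * T ^ n * g ∈ Γ) →
    ∃ Θ : ↥(parHoms Γ Par) →ₗ[ℂ] ((G ⧸ Γ → ℂ) × (G ⧸ Γ → ℂ)),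
      Function.Injective Θ ∧
      LinearMap.range Θ ≤ cocyclePairs (X := G ⧸ Γ) S T n ∧
      Disjoint (LinearMap.range Θ) (coboundaryPairs (X := G ⧸ Γ) S T)

/-- (C-orb) The purely group-theoretic bound:
`dim Hom_par(Γ₀(N), ℂ) + #orb(S) + #orb(T) + #orb(S T) ≤ [SL(2, ℤ) : Γ₀(N)] + 2`. -/
def OrbitBoundStatement : Prop :=
  ∀ (N : ℕ) [NeZero N],
    FiniteDimensional ℂ ↥(parabolicHoms ℂ (Gamma0 N) ℂ) ∧
    Module.finrank ℂ ↥(parabolicHoms ℂ (Gamma0 N) ℂ)
        + orbCount (SL(2, ℤ) ⧸ Gamma0 N) ModularGroup.S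
        + orbCount (SL(2, ℤ) ⧸ Gamma0 N) ModularGroup.T
        + orbCount (SL(2, ℤ) ⧸ Gamma0 N) (ModularGroup.S * ModularGroup.T)
      ≤ Nat.card (SL(2, ℤ) ⧸ Gamma0 N) + 2

/-- (C) The dimension bound: `dim Hom_par(Γ₀(N), ℂ) ≤ 2 * genusFormula N`. -/
def DimStatement : Prop :=
  ∀ (N : ℕ) [NeZero N],
    FiniteDimensional ℂ ↥(parabolicHoms ℂ (Gamma0 N) ℂ) ∧
    (Module.finrank ℂ ↥(parabolicHoms ℂ (Gamma0 N) ℂ) : ℚ) ≤ 2 * genusFormula N

end

end Fermat.Agent.S21
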