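/-
S21 work package `CuspSlash` (statement (A6) of the S21 interface).

For a weight-2 cusp form `f` of level `Γ₀(N)` and `δ : SL(2, ℤ)`, the slash `f ∣[2] δ` is
holomorphic, `N`-periodic and zero at `i∞`; and `f ∣[2] γ = f` for `γ ∈ Γ₀(N)`.

Main result: `Fermat.Agent.S21.CuspSlash.cuspSlashStatement : Fermat.Agent.S21.CuspSlashStatement`.
-/
import Fermat.Agent.S21.Interfaces

set_option autoImplicit false

open UpperHalfPlane CongruenceSubgroup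
open scoped MatrixGroups ModularForm Manifold

namespace Fermat.Agent.S21.CuspSlash

/-- (b) Invariance of a cusp form of level `Γ₀(N)` under the slash action of `Γ₀(N)`. -/
theorem slash_eq_of_mem (N : ℕ) (f : CuspForm (Gamma0 N) 2) (γ : SL(2, ℤ)) (hγ : γ ∈ Gamma0 N) :
    ⇑f ∣[(2 : ℤ)] γ = ⇑f :=
  SlashInvariantFormClass.slash_action_eq f _ (Subgroup.mem_map_of_mem _ hγ)

/-- The slash of a cusp form by an element of `SL(2, ℤ)` is holomorphic. -/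
theorem holo_slash (N : ℕ) (f : CuspForm (Gamma0 N) 2) (δ : SL(2, ℤ)) :
    MDifferentiable 𝓘(ℂ) 𝓘(ℂ) (⇑f ∣[(2 : ℤ)] δ) :=
  MDifferentiable.slash (CuspFormClass.holo f) 2 (δ : GL (Fin 2) ℝ)

/-- The slash of a cusp form of level `Γ₀(N)` by an element of `SL(2, ℤ)` is zero at `i∞`. -/
theorem zero_slash (N : ℕ) [NeZero N] (f : CuspForm (Gamma0 N) 2) (δ : SL(2, ℤ)) :
    IsZeroAtImInfty (⇑f ∣[(2 : ℤ)] δ) :=
  CuspFormClass.zero_at_infty_slash f δ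

/-- The matrix of `T ^ N`. -/
theorem coe_T_pow (N : ℕ) :
    ((ModularGroup.T ^ N : SL(2, ℤ)) : Matrix (Fin 2) (Fin 2) ℤ) = !![1, (N : ℤ); 0, 1] := by
  have := ModularGroup.coe_T_zpow (N : ℤ)
  rwa [zpow_natCast] at this

/-- The conjugate `δ T^N δ⁻¹` lies in `Γ₀(N)`: its lower-left entry is `-N c²`. -/
theorem conj_T_pow_mem (N : ℕ) (δ : SL(2, ℤ)) :
    δ * ModularGroup.T ^ N * δ⁻¹ ∈ Gamma0 N := by
  rw [Gamma0_mem]
  have h : ((δ * ModularGroup.T ^ N * δ⁻¹ : SL(2, ℤ)) : Matrix (Fin 2) (Fin 2) ℤ) 1 0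
      = -(N : ℤ) * (δ 1 0) ^ 2 := by
    rw [Matrix.SpecialLinearGroup.coe_mul, Matrix.SpecialLinearGroup.coe_mul, coe_T_pow,
      Matrix.SpecialLinearGroup.coe_inv, Matrix.adjugate_fin_two]
    simp [Matrix.mul_apply, Fin.sum_univ_two]
    ring
  rw [h]
  simp

/-- Slashing (in weight 2) by `T ^ N` is translation by `N`. -/
theorem slash_T_pow_apply (g : ℍ → ℂ) (N : ℕ) (w : ℍ) :
    (g ∣[(2 : ℤ)] (ModularGroup.T ^ N : SL(2, ℤ))) w = g ((N : ℝ) +ᵥ w) := by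
  rw [ModularForm.SL_slash_apply]
  have h1 : (ModularGroup.T ^ N : SL(2, ℤ)) • w = (N : ℝ) +ᵥ w := by
    have := UpperHalfPlane.modular_T_zpow_smul w (N : ℤ)
    rw [zpow_natCast] at this
    rw [this]
    simp
  rw [h1]
  have h10 : ((ModularGroup.T ^ N : SL(2, ℤ)) : Matrix (Fin 2) (Fin 2) ℤ) 1 0 = 0 := by
    rw [coe_T_pow]; rfl
  have h11 : ((ModularGroup.T ^ N : SL(2, ℤ)) : Matrix (Fin 2) (Fin 2) ℤ) 1 1 = 1 := by
    rw [coe_T_pow]; rfl
  have h2 : denom (Matrix.SpecialLinearGroup.toGL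
      ((Matrix.SpecialLinearGroup.map (Int.castRingHom ℝ)) (ModularGroup.T ^ N : SL(2, ℤ))))
        (w : ℂ) = 1 := by
    simp only [denom, Matrix.SpecialLinearGroup.coe_GL_coe_matrix,
      Matrix.SpecialLinearGroup.map_apply_coe, RingHom.mapMatrix_apply, Int.coe_castRingHom,
      Matrix.map_apply, h10, h11]
    simp
  rw [h2]
  simp

/-- `f ∣[2] δ` is invariant under slashing by `T ^ N`, since `δ T^N δ⁻¹ ∈ Γ₀(N)`. -/
theorem slash_slash_T_pow (N : ℕ) (f : CuspForm (Gamma0 N) 2) (δ : SL(2, ℤ)) :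
    (⇑f ∣[(2 : ℤ)] δ) ∣[(2 : ℤ)] (ModularGroup.T ^ N : SL(2, ℤ)) = ⇑f ∣[(2 : ℤ)] δ := by
  rw [← SlashAction.slash_mul]
  have h : δ * ModularGroup.T ^ N = (δ * ModularGroup.T ^ N * δ⁻¹) * δ := by group
  rw [h, SlashAction.slash_mul, slash_eq_of_mem N f _ (conj_T_pow_mem N δ)]

/-- `f ∣[2] δ` is invariant under translation by `N` on the upper half-plane. -/
theorem slash_vadd (N : ℕ) (f : CuspForm (Gamma0 N) 2) (δ : SL(2, ℤ)) (w : ℍ) :
    (⇑f ∣[(2 : ℤ)] δ) ((N : ℝ) +ᵥ w) = (⇑f ∣[(2 : ℤ)] δ) w := by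
  rw [← slash_T_pow_apply (⇑f ∣[(2 : ℤ)] δ) N w, slash_slash_T_pow]

/-- `(f ∣[2] δ) ∘ ofComplex` is `N`-periodic. -/
theorem periodic_slash (N : ℕ) (f : CuspForm (Gamma0 N) 2) (δ : SL(2, ℤ)) :
    Function.Periodic ((⇑f ∣[(2 : ℤ)] δ) ∘ ofComplex) (N : ℝ) := by
  intro w
  by_cases hw : 0 < w.im
  · have hw' : 0 < (w + ((N : ℝ) : ℂ)).im := by simpa using hw
    have hv : (N : ℝ) +ᵥ (⟨w, hw⟩ : ℍ) = ⟨w + ((N : ℝ) : ℂ), hw'⟩ := by
      ext
      simp [add_comm]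
    rw [Function.comp_apply, Function.comp_apply, ofComplex_apply_of_im_pos hw',
      ofComplex_apply_of_im_pos hw, ← hv, slash_vadd]
  · have hw0 : w.im ≤ 0 := not_lt.mp hw
    have hw' : (w + ((N : ℝ) : ℂ)).im ≤ 0 := by simpa using hw0
    rw [Function.comp_apply, Function.comp_apply, ofComplex_apply_of_im_nonpos hw',
      ofComplex_apply_of_im_nonpos hw0]

/-- (A6) Slashes of a weight-2 cusp form of level `Γ₀(N)` by elements of `SL(2, ℤ)`: holomorphic,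
`N`-periodic, zero at `i∞`; and invariance under `Γ₀(N)`. -/
theorem cuspSlashStatement : Fermat.Agent.S21.CuspSlashStatement := by
  intro N _ f
  exact ⟨fun δ => ⟨holo_slash N f δ, periodic_slash N f δ, zero_slash N f δ⟩,
    fun γ hγ => slash_eq_of_mem N f γ hγ⟩

end Fermat.Agent.S21.CuspSlash
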