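/-
S21 package `Inj` (twin file `InjB`): injectivity of the Eichler–Shimura map

  `periodMap N u + charInvolution N ℂ ℂ (periodMap N v) = 0 → u = 0 ∧ v = 0`

from the existence of equivariant primitives, the formula for the period map, the parabolicity of
period homomorphisms and the maximum modulus principle on `X₀(N)`.

For `c : ℂ` the function `H_c z = c * F_u z + conj (c * F_v (-conj z))` has purely imaginary
`Γ₀(N)`-periods, so `exp ∘ H_c` has `Γ₀(N)`-invariant modulus; it is holomorphic and bounded at the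
cusps, hence constant.  Differentiating gives `c * u τ = conj (c * v (-conj τ))` for all `c`,
whence `u = v = 0`.
-/
import Fermat.Agent.S21.Interfaces

set_option autoImplicit false

open UpperHalfPlane CongruenceSubgroup ModularCurve ModularCurve.Period Filter Topology
open scoped MatrixGroups ModularForm Manifold ComplexConjugate

namespace Fermat.Agent.S21.InjB

noncomputable section

/-- The auxiliary function `H_c z = c * F_u z + conj (c * F_v (jz z))`. -/
def Hc (c : ℂ) (Fu Fv : ℍ → ℂ) (z : ℍ) : ℂ := c * Fu z + conj (c * Fv (jz z))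

theorem Hc_apply (c : ℂ) (Fu Fv : ℍ → ℂ) (z : ℍ) :
    Hc c Fu Fv z = c * Fu z + conj (c * Fv (jz z)) := rfl

/-- (1) The derivative of `H_c`. -/
theorem hasDerivAt_Hc (hC : PrimConjStatement) (c : ℂ) {u v Fu Fv : ℍ → ℂ}
    (hu : IsPrim u Fu) (hv : IsPrim v Fv) (τ : ℍ) :
    HasDerivAt (Hc c Fu Fv ∘ ofComplex) (c * u τ - conj (c * v (jz τ))) ↑τ := by
  have h1 : HasDerivAt (Fu ∘ ofComplex) (u τ) ↑τ := hu τ
  have h2 : HasDerivAt ((fun z : ℍ => conj (Fv (jz z))) ∘ ofComplex) (-conj (v (jz τ))) ↑τ :=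
    hC v Fv hv τ
  have h3 := (h1.const_mul c).add (h2.const_mul (conj c))
  have hfun : Hc c Fu Fv ∘ ofComplex = fun x : ℂ =>
      c * (Fu ∘ ofComplex) x + conj c * ((fun z : ℍ => conj (Fv (jz z))) ∘ ofComplex) x := by
    funext x
    simp only [Function.comp_apply, Hc_apply, map_mul]
  have hval : c * u τ - conj (c * v (jz τ)) = c * u τ + conj c * (-conj (v (jz τ))) := by
    rw [map_mul]; ring
  rw [hfun, hval]
  exact h3

/-- The matrix of `δ * T ^ n * δ⁻¹`: lower-left entry and trace. -/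
theorem conj_T_pow (δ : SL(2, ℤ)) (n : ℕ) :
    ((δ * ModularGroup.T ^ n * δ⁻¹ : SL(2, ℤ)) : Matrix (Fin 2) (Fin 2) ℤ) 1 0
        = -((n : ℤ) * ((δ : Matrix (Fin 2) (Fin 2) ℤ) 1 0) ^ 2) ∧
    ((δ * ModularGroup.T ^ n * δ⁻¹ : SL(2, ℤ)) : Matrix (Fin 2) (Fin 2) ℤ).trace = 2 := by
  have hT : ((ModularGroup.T ^ n : SL(2, ℤ)) : Matrix (Fin 2) (Fin 2) ℤ)
      = !![1, (n : ℤ); 0, 1] := by
    rw [← zpow_natCast, ModularGroup.coe_T_zpow]
  have hdet := δ.det_coe
  rw [Matrix.det_fin_two] at hdet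
  simp only [Matrix.SpecialLinearGroup.coe_mul, Matrix.SpecialLinearGroup.coe_inv, hT,
    Matrix.adjugate_fin_two, Matrix.trace_fin_two, Matrix.mul_apply, Fin.sum_univ_two,
    Matrix.of_apply, Matrix.cons_val', Matrix.cons_val_zero, Matrix.cons_val_one,
    Matrix.empty_val', Matrix.cons_val_fin_one]
  constructor
  · ring
  · linear_combination 2 * hdet

/-- `δ * T ^ N * δ⁻¹` lies in `Γ₀(N)`. -/
theorem conj_T_pow_mem_Gamma0 (N : ℕ) (δ : SL(2, ℤ)) :
    δ * ModularGroup.T ^ N * δ⁻¹ ∈ Gamma0 N := by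
  rw [Gamma0_mem, (conj_T_pow δ N).1]
  push_cast
  simp

/-- (P3) Injectivity of the Eichler–Shimura map. -/
theorem injStatement (hP : PrimitiveStatement) (hE : PeriodMapEqStatement)
    (hPar : ParabolicStatement) (hM : MaxModStatement) (hC : PrimConjStatement)
    (hJ : JzStatement) : InjStatement := by
  intro N _ u v huv
  obtain ⟨Fu, hFu⟩ := hP N u
  obtain ⟨Fv, hFv⟩ := hP N v
  obtain ⟨hJ1, hJ2, hJ3⟩ := hJ
  have hu : IsPrim (⇑u) Fu := hFu.1
  have hv : IsPrim (⇑v) Fv := hFv.1
  -- the relation between the periods of `u` and `v`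
  have hper : ∀ γ : Gamma0 N, periodMap N v (Additive.ofMul (jConjGamma0 N γ))
      = -periodMap N u (Additive.ofMul γ) := by
    intro γ
    have h := DFunLike.congr_fun huv (Additive.ofMul γ)
    rw [AddMonoidHom.add_apply, charInvolution_apply, toMul_ofMul, AddMonoidHom.zero_apply] at h
    exact eq_neg_of_add_eq_zero_right h
  -- (2) the periods of `H_c`
  have hHper : ∀ (c : ℂ) (γ : Gamma0 N) (z : ℍ),
      Hc c Fu Fv ((γ : SL(2, ℤ)) • z) = Hc c Fu Fv z
        + (c * periodMap N u (Additive.ofMul γ)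
          - conj (c * periodMap N u (Additive.ofMul γ))) := by
    intro c γ z
    have h1 := hE N u Fu hu γ z
    have h2 := hE N v Fv hv (jConjGamma0 N γ) (jz z)
    rw [hper γ, jConjGamma0_coe, ← hJ1] at h2
    have e1 : Fu ((γ : SL(2, ℤ)) • z) = periodMap N u (Additive.ofMul γ) + Fu z := by
      rw [h1]; ring
    have e2 : Fv (jz ((γ : SL(2, ℤ)) • z)) = -periodMap N u (Additive.ofMul γ) + Fv (jz z) := by
      linear_combination -h2
    rw [Hc_apply, Hc_apply, e1, e2]
    simp only [map_mul, map_add, map_neg]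
    ring
  -- the main identity
  have key : ∀ (c : ℂ) (τ : ℍ), c * u τ = conj (c * v (jz τ)) := by
    intro c τ
    set E : ℍ → ℂ := fun z => Complex.exp (Hc c Fu Fv z) with hEdef
    have hderiv : ∀ σ : ℍ, HasDerivAt (E ∘ ofComplex)
        (Complex.exp (Hc c Fu Fv σ) * (c * u σ - conj (c * v (jz σ)))) ↑σ := by
      intro σ
      have h := (hasDerivAt_Hc hC c hu hv σ).cexp
      simp only [Function.comp_apply, ofComplex_apply] at h
      exact h
    have hmd : MDifferentiable 𝓘(ℂ) 𝓘(ℂ) E := by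
      rw [UpperHalfPlane.mdifferentiable_iff]
      intro z hz
      exact (hderiv ⟨z, hz⟩).differentiableAt.differentiableWithinAt
    have hnorm : ∀ γ : SL(2, ℤ), γ ∈ Gamma0 N → ∀ z : ℍ, ‖E (γ • z)‖ = ‖E z‖ := by
      intro γ hγ z
      have h := hHper c ⟨γ, hγ⟩ z
      simp only [hEdef, Complex.norm_exp]
      rw [h]
      congr 1
      simp [Complex.add_re, Complex.sub_re, Complex.conj_re]
    have hcusp : ∀ (δ : SL(2, ℤ)) (w : ℍ), E ((δ * ModularGroup.T ^ N) • w) = E (δ • w) := by
      intro δ w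
      have hmem := conj_T_pow_mem_Gamma0 N δ
      have h := hHper c ⟨_, hmem⟩ (δ • w)
      have h0 : periodMap N u (Additive.ofMul ⟨_, hmem⟩) = 0 := by
        have hpar := hPar N u
        rw [mem_parabolicHoms_iff] at hpar
        apply hpar
        show (((δ * ModularGroup.T ^ N * δ⁻¹ : SL(2, ℤ)) : Matrix (Fin 2) (Fin 2) ℤ).trace) ^ 2
          = 4
        rw [(conj_T_pow δ N).2]; norm_num
      rw [h0] at h
      have hsm : (δ * ModularGroup.T ^ N * δ⁻¹) • (δ • w) = (δ * ModularGroup.T ^ N) • w := by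
        rw [smul_smul, inv_mul_cancel_right]
      simp only [hEdef]
      rw [← hsm]
      rw [h]; simp
    have hbdd : ∀ δ : SL(2, ℤ), IsBoundedAtImInfty (fun w : ℍ => E (δ • w)) := by
      intro δ
      obtain ⟨L, hL⟩ := hFu.2.2.2 δ
      obtain ⟨L', hL'⟩ := hFv.2.2.2 (jConjSL δ)
      have hL'' : Tendsto (fun w : ℍ => Fv (jz (δ • w))) atImInfty (𝓝 L') := by
        have h := hL'.comp hJ3
        refine h.congr (fun w => ?_)
        simp only [Function.comp_apply]
        rw [hJ1]
      have hlim : Tendsto (fun w : ℍ => Hc c Fu Fv (δ • w)) atImInfty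
          (𝓝 (c * L + conj (c * L'))) :=
        (hL.const_mul c).add ((Complex.continuous_conj.tendsto _).comp (hL''.const_mul c))
      have hlimE : Tendsto (fun w : ℍ => E (δ • w)) atImInfty
          (𝓝 (Complex.exp (c * L + conj (c * L')))) :=
        (Complex.continuous_exp.tendsto _).comp hlim
      exact hlimE.isBigO_one ℝ
    have hconst := hM N E hmd hnorm hcusp hbdd
    have hd0 : HasDerivAt (E ∘ ofComplex) 0 ↑τ := by
      have hfun : E ∘ ofComplex = fun _ => E τ := by
        funext x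
        exact hconst _ _
      rw [hfun]
      exact hasDerivAt_const _ _
    have h0 := (hderiv τ).unique hd0
    have hne : Complex.exp (Hc c Fu Fv τ) ≠ 0 := Complex.exp_ne_zero _
    exact sub_eq_zero.mp ((mul_eq_zero.mp h0).resolve_left hne)
  -- (6) conclusion
  have hu0 : ∀ τ : ℍ, u τ = 0 := by
    intro τ
    have h1 := key 1 τ
    have h2 := key Complex.I τ
    rw [one_mul, one_mul] at h1
    rw [map_mul, Complex.conj_I, ← h1] at h2
    have h3 : (2 * Complex.I) * u τ = 0 := by linear_combination h2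
    exact (mul_eq_zero.mp h3).resolve_left (by simp)
  have hv0 : ∀ τ : ℍ, v τ = 0 := by
    intro τ
    have h1 := key 1 (jz τ)
    rw [one_mul, one_mul, hu0, hJ2] at h1
    exact (map_eq_zero (starRingEnd ℂ)).mp h1.symm
  exact ⟨DFunLike.ext _ _ (fun τ => by simpa using hu0 τ),
    DFunLike.ext _ _ (fun τ => by simpa using hv0 τ)⟩

end

end Fermat.Agent.S21.InjB
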