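/-
S21, package `LinAlg`: linear algebra on the permutation module `X → ℂ` of a transitive action of
`G = ⟨S, T⟩` on a finite set `X` on which `S ^ 2`, `(S * T) ^ 3` and `T ^ n` act trivially.

* `dim cocyclePairs + #orb(S) + #orb(T) + #orb(S T) ≤ 2 |X| + 1`,
* `|X| ≤ dim coboundaryPairs + 1`,
* `coboundaryPairs ≤ cocyclePairs`.

The permutation-module lemmas are adapted (from `ℚ` to `ℂ`) from `Fermat/Agent/S24/Ree.lean`.
-/
import Fermat.Agent.S21.Interfaces

set_option autoImplicit false

namespace Fermat.Agent.S21.LinAlg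

open Module

/-! ## General linear algebra -/

section General

variable {k V W : Type*} [Field k] [AddCommGroup V] [Module k V] [AddCommGroup W] [Module k W]

/-- Rank–nullity for the restriction of a linear map to a subspace. -/
theorem finrank_eq_map_add_inf_ker [FiniteDimensional k V] (f : V →ₗ[k] W) (K : Submodule k V) :
    finrank k K = finrank k (K.map f) + finrank k ↥(K ⊓ LinearMap.ker f) := by
  have h := LinearMap.finrank_range_add_finrank_ker (f.domRestrict K)
  rw [LinearMap.range_domRestrict, LinearMap.ker_domRestrict] at h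
  have h2 : finrank k ↥(Submodule.comap K.subtype (LinearMap.ker f))
      = finrank k ↥(K ⊓ LinearMap.ker f) := by
    have h3 : Submodule.comap K.subtype (LinearMap.ker f)
        = Submodule.comap K.subtype (K ⊓ LinearMap.ker f) := by
      ext x
      simp
    rw [h3]
    exact (Submodule.comapSubtypeEquivOfLe (inf_le_left)).finrank_eq
  omega

/-- The dimension of a product of two subspaces. -/
theorem finrank_prod_submodule [FiniteDimensional k V] [FiniteDimensional k W]
    (p : Submodule k V) (q : Submodule k W) :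
    finrank k ↥(p.prod q) = finrank k p + finrank k q := by
  have hinj : Function.Injective (p.subtype.prodMap q.subtype) := by
    rw [LinearMap.coe_prodMap]
    exact Function.Injective.prodMap p.injective_subtype q.injective_subtype
  have h := LinearMap.finrank_range_of_inj hinj
  rw [LinearMap.range_prodMap, Submodule.range_subtype, Submodule.range_subtype,
    Module.finrank_prod] at h
  exact h

end General

/-! ## The permutation module `X → ℂ` -/

section Perm

variable {G X : Type} [Group G] [MulAction G X]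

theorem permOp_apply (g : G) (v : X → ℂ) (x : X) : permOp g v x = v (g • x) := rfl

theorem permOp_mul (g h : G) : permOp (X := X) (g * h) = permOp h ∘ₗ permOp g := by
  refine LinearMap.ext fun v => funext fun x => ?_
  simp only [LinearMap.comp_apply, permOp_apply, mul_smul]

theorem normOp_apply (g : G) (n : ℕ) (v : X → ℂ) (x : X) :
    normOp g n v x = ∑ k ∈ Finset.range n, v (g ^ k • x) := by
  simp only [normOp, LinearMap.sum_apply, Finset.sum_apply, permOp_apply]

theorem sub_one_apply (g : G) (v : X → ℂ) (x : X) :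
    (permOp g - 1) v x = v (g • x) - v x := rfl

theorem mem_ker_iff (g : G) (v : X → ℂ) :
    v ∈ LinearMap.ker (permOp g - 1) ↔ ∀ x, v (g • x) = v x := by
  rw [LinearMap.mem_ker]
  constructor
  · intro h x
    have := congrFun h x
    rw [sub_one_apply] at this
    exact sub_eq_zero.mp this
  · intro h
    funext x
    rw [sub_one_apply, h x, sub_self]
    rfl

/-- The subgroup of elements of `G` leaving a function invariant. -/
def stab (v : X → ℂ) : Subgroup G where
  carrier := {h | ∀ x, v (h • x) = v x}
  mul_mem' := by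
    intro g h hg hh x
    rw [mul_smul, hg, hh]
  one_mem' := by
    intro x
    rw [one_smul]
  inv_mem' := by
    intro g hg x
    have := hg (g⁻¹ • x)
    rw [smul_inv_smul] at this
    exact this.symm

theorem mem_stab_iff (v : X → ℂ) (h : G) : h ∈ stab (G := G) v ↔ ∀ x, v (h • x) = v x := Iff.rfl

/-- Telescoping: the norm operator kills the image of `permOp g - 1` when `g ^ m` acts
trivially. -/
theorem normOp_sub_one (g : G) (m : ℕ) (hg : ∀ x : X, g ^ m • x = x) (v : X → ℂ) :
    normOp g m ((permOp g - 1) v) = 0 := by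
  funext x
  rw [normOp_apply]
  have h : ∀ k : ℕ, ((permOp g - 1) v) (g ^ k • x) = v (g ^ (k + 1) • x) - v (g ^ k • x) := by
    intro k
    rw [sub_one_apply, pow_succ', mul_smul]
  simp only [h]
  rw [Finset.sum_range_sub (fun k => v (g ^ k • x)) m, hg, pow_zero, one_smul, sub_self]
  rfl

/-- On functions fixed by `g`, the norm operator is multiplication by `m`. -/
theorem normOp_of_mem_ker (g : G) (m : ℕ) (v : X → ℂ)
    (hv : v ∈ LinearMap.ker (permOp g - 1)) : normOp g m v = (m : ℂ) • v := by
  rw [mem_ker_iff] at hv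
  have h : ∀ k : ℕ, ∀ x, v (g ^ k • x) = v x := by
    intro k
    induction k with
    | zero => intro x; rw [pow_zero, one_smul]
    | succ k ih => intro x; rw [pow_succ', mul_smul, hv, ih]
  funext x
  rw [normOp_apply]
  simp only [h, Finset.sum_const, Finset.card_range, Pi.smul_apply, nsmul_eq_mul, smul_eq_mul]

/-- If `a`, `b` generate a transitive group, the common fixed space is at most a line. -/
theorem finrank_fix_le_one [MulAction.IsPretransitive G X] (a b : G)
    (hab : Subgroup.closure {a, b} = ⊤) :
    finrank ℂ ↥(LinearMap.ker (permOp (X := X) a - 1) ⊓ LinearMap.ker (permOp (X := X) b - 1))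
      ≤ 1 := by
  have hle : LinearMap.ker (permOp (X := X) a - 1) ⊓ LinearMap.ker (permOp (X := X) b - 1)
      ≤ Submodule.span ℂ {fun _ => (1 : ℂ)} := by
    rintro v ⟨ha, hb⟩
    rw [SetLike.mem_coe, mem_ker_iff] at ha hb
    have htop : stab (G := G) v = ⊤ := by
      rw [eq_top_iff, ← hab, Subgroup.closure_le]
      rintro g (rfl | rfl)
      · exact ha
      · exact hb
    have hconst : ∀ x y, v x = v y := by
      intro x y
      obtain ⟨g, rfl⟩ := MulAction.exists_smul_eq G y x
      have hg : g ∈ stab (G := G) v := htop ▸ Subgroup.mem_top g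
      exact hg y
    rw [Submodule.mem_span_singleton]
    rcases isEmpty_or_nonempty X with hX | ⟨⟨x₀⟩⟩
    · exact ⟨0, funext fun x => (hX.false x).elim⟩
    · exact ⟨v x₀, funext fun x => by simp [hconst x x₀]⟩
  refine (Submodule.finrank_mono hle).trans ?_
  exact (finrank_span_le_card _).trans (by simp)

variable [Fintype X]

/-- The fixed space of `g` has dimension the number of orbits of `⟨g⟩`. -/
theorem finrank_ker (g : G) :
    finrank ℂ (LinearMap.ker (permOp (X := X) g - 1)) = orbCount X g := by
  classical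
  let _ : Fintype (MulAction.orbitRel.Quotient (Subgroup.zpowers g) X) := Fintype.ofFinite _
  let q : X → MulAction.orbitRel.Quotient (Subgroup.zpowers g) X := Quotient.mk''
  have hq : Function.Surjective q := Quotient.mk''_surjective
  have hinj := LinearMap.funLeft_injective_of_surjective ℂ ℂ q hq
  have hrange : LinearMap.range (LinearMap.funLeft ℂ ℂ q) = LinearMap.ker (permOp g - 1) := by
    ext v
    rw [mem_ker_iff]
    constructor
    · rintro ⟨w, rfl⟩ x
      show w (q (g • x)) = w (q x)
      congr 1
      apply Quotient.sound'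
      exact ⟨⟨g, Subgroup.mem_zpowers g⟩, rfl⟩
    · intro hv
      have hstab : Subgroup.zpowers g ≤ stab v := by
        rw [Subgroup.zpowers_le]
        exact hv
      refine ⟨Quotient.lift v ?_, ?_⟩
      · rintro x y ⟨⟨h, hh⟩, rfl⟩
        exact hstab hh y
      · funext x
        rfl
  rw [← hrange, LinearMap.finrank_range_of_inj hinj, Module.finrank_fintype_fun_eq_card, orbCount,
    Nat.card_eq_fintype_card]

/-- The kernel of the norm operator is small when `g ^ m` acts trivially. -/
theorem finrank_ker_normOp_add_le (g : G) (m : ℕ) (hm : 0 < m) :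
    finrank ℂ (LinearMap.ker (normOp (X := X) g m)) + orbCount X g ≤ Fintype.card X := by
  have hle : LinearMap.ker (permOp (X := X) g - 1) ≤ LinearMap.range (normOp (X := X) g m) := by
    intro v hv
    refine ⟨(m : ℂ)⁻¹ • v, ?_⟩
    rw [map_smul, normOp_of_mem_ker g m v hv, smul_smul,
      inv_mul_cancel₀ (Nat.cast_ne_zero.mpr hm.ne'), one_smul]
  have h1 := Submodule.finrank_mono hle
  rw [finrank_ker] at h1
  have h2 := LinearMap.finrank_range_add_finrank_ker (normOp (X := X) g m)
  rw [Module.finrank_fintype_fun_eq_card] at h2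
  omega

/-- The sum functional. -/
noncomputable def sumL : (X → ℂ) →ₗ[ℂ] ℂ := ∑ x, LinearMap.proj x

theorem sumL_apply (v : X → ℂ) : sumL v = ∑ x, v x := by
  simp [sumL]

theorem card_le_finrank_ker_sumL_add_one :
    Fintype.card X ≤ finrank ℂ (LinearMap.ker (sumL (X := X))) + 1 := by
  have h2 := LinearMap.finrank_range_add_finrank_ker (sumL (X := X))
  have h3 : finrank ℂ (LinearMap.range (sumL (X := X))) ≤ 1 := by
    have := Submodule.finrank_le (LinearMap.range (sumL (X := X)))
    simpa using this
  rw [Module.finrank_fintype_fun_eq_card] at h2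
  omega

variable [DecidableEq X]

omit [Fintype X] in
theorem sub_one_single (g : G) (x : X) :
    (permOp g - 1) (Pi.single (g • x) (1 : ℂ)) = Pi.single x 1 - Pi.single (g • x) 1 := by
  funext y
  rw [sub_one_apply, Pi.sub_apply]
  congr 1
  simp [Pi.single_apply]

/-- The subgroup of `h` such that `e (h • x) - e x ∈ W` for all `x`. -/
def diffSub (W : Submodule ℂ (X → ℂ)) : Subgroup G where
  carrier := {h | ∀ x, (Pi.single (h • x) (1 : ℂ) - Pi.single x 1 : X → ℂ) ∈ W}
  mul_mem' := by
    intro g h hg hh x
    have := W.add_mem (hg (h • x)) (hh x)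
    rw [sub_add_sub_cancel] at this
    rw [mul_smul]
    exact this
  one_mem' := by
    intro x
    simp
  inv_mem' := by
    intro g hg x
    have := W.neg_mem (hg (g⁻¹ • x))
    rw [smul_inv_smul, neg_sub] at this
    exact this

omit [Fintype X] in
theorem mem_diffSub_of_range_le (W : Submodule ℂ (X → ℂ)) (g : G)
    (h : LinearMap.range (permOp (X := X) g - 1) ≤ W) : g ∈ diffSub (G := G) W := by
  intro x
  have h1 : (permOp g - 1) (Pi.single (g • x) (1 : ℂ)) ∈ W := h ⟨_, rfl⟩
  rw [sub_one_single] at h1
  have h2 := W.neg_mem h1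
  rw [neg_sub] at h2
  exact h2

/-- A subspace containing all differences of basis vectors contains the sum-zero functions. -/
theorem ker_sumL_le [MulAction.IsPretransitive G X] (W : Submodule ℂ (X → ℂ))
    (htop : diffSub (G := G) W = ⊤) : LinearMap.ker (sumL (X := X)) ≤ W := by
  have hdiff : ∀ x y : X, (Pi.single y (1 : ℂ) - Pi.single x 1 : X → ℂ) ∈ W := by
    intro x y
    obtain ⟨g, rfl⟩ := MulAction.exists_smul_eq G x y
    have hg : g ∈ diffSub (G := G) W := htop ▸ Subgroup.mem_top g
    exact hg x
  intro v hv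
  rw [LinearMap.mem_ker, sumL_apply] at hv
  rcases isEmpty_or_nonempty X with hX | ⟨⟨x₀⟩⟩
  · have hv0 : v = 0 := funext fun x => (hX.false x).elim
    rw [hv0]
    exact Submodule.zero_mem _
  · have hv' : v = ∑ x, v x • (Pi.single x (1 : ℂ) - Pi.single x₀ 1 : X → ℂ) := by
      simp only [smul_sub, Finset.sum_sub_distrib, ← Finset.sum_smul, hv, zero_smul, sub_zero]
      funext y
      simp [Pi.single_apply]
    rw [hv']
    exact Submodule.sum_mem _ fun x _ => Submodule.smul_mem _ _ (hdiff x₀ x)

end Perm

/-! ## Cocycle pairs and coboundary pairs -/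

section Pairs

variable {G X : Type} [Group G] [MulAction G X]

/-- The map `(a, b) ↦ permOp T a + b` (the value at `S * T` of a cocycle with values `a`, `b` at
`S`, `T`). -/
noncomputable def pairMap (T : G) : (X → ℂ) × (X → ℂ) →ₗ[ℂ] (X → ℂ) :=
  permOp T ∘ₗ LinearMap.fst ℂ (X → ℂ) (X → ℂ) + LinearMap.snd ℂ (X → ℂ) (X → ℂ)

theorem pairMap_apply (T : G) (p : (X → ℂ) × (X → ℂ)) : pairMap T p = permOp T p.1 + p.2 := rfl

/-- The pairs `(a, b)` with `a ∈ ker (normOp S 2)` and `b ∈ ker (normOp T n)`. -/
noncomputable def kerPairs (S T : G) (n : ℕ) : Submodule ℂ ((X → ℂ) × (X → ℂ)) :=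
  (LinearMap.ker (normOp (X := X) S 2)).prod (LinearMap.ker (normOp (X := X) T n))

theorem cocyclePairs_eq (S T : G) (n : ℕ) :
    cocyclePairs (X := X) S T n
      = kerPairs (X := X) S T n ⊓ LinearMap.ker (normOp (X := X) (S * T) 3 ∘ₗ pairMap T) := by
  ext p
  simp only [cocyclePairs, kerPairs, pairMap, Submodule.mem_inf, LinearMap.mem_ker,
    Submodule.mem_prod, LinearMap.comp_apply, LinearMap.fst_apply, LinearMap.snd_apply]

theorem pairMap_coboundary (S T : G) (v : X → ℂ) :
    pairMap T ((permOp S - 1) v, (permOp T - 1) v) = (permOp (S * T) - 1) v := by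
  funext x
  simp only [pairMap_apply, Pi.add_apply, permOp_apply, sub_one_apply, mul_smul]
  ring

theorem coboundaryPairs_le_kerPairs (S T : G) (n : ℕ) (hS : ∀ x : X, S ^ 2 • x = x)
    (hT : ∀ x : X, T ^ n • x = x) :
    coboundaryPairs (X := X) S T ≤ kerPairs (X := X) S T n := by
  rintro _ ⟨v, rfl⟩
  exact ⟨normOp_sub_one S 2 hS v, normOp_sub_one T n hT v⟩

theorem coboundaryPairs_le_cocyclePairs (S T : G) (n : ℕ) (hS : ∀ x : X, S ^ 2 • x = x)
    (hU : ∀ x : X, (S * T) ^ 3 • x = x) (hT : ∀ x : X, T ^ n • x = x) :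
    coboundaryPairs (X := X) S T ≤ cocyclePairs (X := X) S T n := by
  rw [cocyclePairs_eq]
  refine le_inf (coboundaryPairs_le_kerPairs S T n hS hT) ?_
  rintro _ ⟨v, rfl⟩
  rw [LinearMap.mem_ker, LinearMap.comp_apply]
  show normOp (S * T) 3 (pairMap T ((permOp S - 1) v, (permOp T - 1) v)) = 0
  rw [pairMap_coboundary]
  exact normOp_sub_one (S * T) 3 hU v

variable [Fintype X]

theorem finrank_kerPairs (S T : G) (n : ℕ) :
    finrank ℂ ↥(kerPairs (X := X) S T n)
      = finrank ℂ (LinearMap.ker (normOp (X := X) S 2))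
        + finrank ℂ (LinearMap.ker (normOp (X := X) T n)) :=
  finrank_prod_submodule _ _

/-- The sum-zero functions are in the image of `kerPairs` under `pairMap`. -/
theorem ker_sumL_le_map [MulAction.IsPretransitive G X] (S T : G) (n : ℕ)
    (hST : Subgroup.closure {S, T} = ⊤) (hS : ∀ x : X, S ^ 2 • x = x)
    (hT : ∀ x : X, T ^ n • x = x) :
    LinearMap.ker (sumL (X := X)) ≤ (kerPairs (X := X) S T n).map (pairMap T) := by
  classical
  apply ker_sumL_le (G := G)
  have hTmem : T ∈ diffSub (G := G) ((kerPairs (X := X) S T n).map (pairMap T)) := by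
    apply mem_diffSub_of_range_le
    rintro _ ⟨v, rfl⟩
    refine ⟨(0, (permOp T - 1) v), ⟨?_, normOp_sub_one T n hT v⟩, ?_⟩
    · exact map_zero _
    · rw [pairMap_apply, map_zero, zero_add]
  have hUmem : S * T ∈ diffSub (G := G) ((kerPairs (X := X) S T n).map (pairMap T)) := by
    apply mem_diffSub_of_range_le
    rintro _ ⟨v, rfl⟩
    exact ⟨((permOp S - 1) v, (permOp T - 1) v),
      ⟨normOp_sub_one S 2 hS v, normOp_sub_one T n hT v⟩, pairMap_coboundary S T v⟩
  rw [eq_top_iff, ← hST, Subgroup.closure_le]
  rintro g (rfl | rfl)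
  · have := Subgroup.mul_mem _ hUmem (Subgroup.inv_mem _ hTmem)
    rwa [mul_inv_cancel_right] at this
  · exact hTmem

/-- The image of `kerPairs` under `normOp (S * T) 3 ∘ pairMap T` is large. -/
theorem orbCount_le_finrank_map [MulAction.IsPretransitive G X] (S T : G) (n : ℕ)
    (hST : Subgroup.closure {S, T} = ⊤) (hS : ∀ x : X, S ^ 2 • x = x)
    (hT : ∀ x : X, T ^ n • x = x) :
    orbCount X (S * T)
      ≤ finrank ℂ ↥((kerPairs (X := X) S T n).map (normOp (X := X) (S * T) 3 ∘ₗ pairMap T))
        + 1 := by
  rw [Submodule.map_comp]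
  have h1 := Submodule.finrank_mono (ker_sumL_le_map (X := X) S T n hST hS hT)
  have h2 := card_le_finrank_ker_sumL_add_one (X := X)
  have h3 := finrank_eq_map_add_inf_ker (normOp (X := X) (S * T) 3)
    ((kerPairs (X := X) S T n).map (pairMap T))
  have h4 := Submodule.finrank_mono (inf_le_right :
    (kerPairs (X := X) S T n).map (pairMap T) ⊓ LinearMap.ker (normOp (X := X) (S * T) 3)
      ≤ LinearMap.ker (normOp (X := X) (S * T) 3))
  have h5 := finrank_ker_normOp_add_le (X := X) (S * T) 3 (by norm_num)
  omega

end Pairs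

/-- **Linear algebra on the permutation module.** -/
theorem linAlgStatement : LinAlgStatement := by
  intro G X _ _ _ _ _ S T n hn hST hS hU hT
  classical
  let _ : Fintype X := Fintype.ofFinite X
  rw [Nat.card_eq_fintype_card]
  refine ⟨?_, ?_, coboundaryPairs_le_cocyclePairs S T n hS hU hT⟩
  · have h1 := finrank_eq_map_add_inf_ker (normOp (X := X) (S * T) 3 ∘ₗ pairMap T)
      (kerPairs (X := X) S T n)
    rw [← cocyclePairs_eq, finrank_kerPairs] at h1
    have h2 := orbCount_le_finrank_map (X := X) S T n hST hS hT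
    have h3 := finrank_ker_normOp_add_le (X := X) S 2 (by norm_num)
    have h4 := finrank_ker_normOp_add_le (X := X) T n hn
    omega
  · have h1 := LinearMap.finrank_range_add_finrank_ker
      ((permOp (X := X) S - 1).prod (permOp (X := X) T - 1))
    rw [LinearMap.ker_prod, Module.finrank_fintype_fun_eq_card] at h1
    have h2 := finrank_fix_le_one (X := X) S T hST
    have h3 : finrank ℂ ↥(coboundaryPairs (X := X) S T)
        = finrank ℂ ↥(LinearMap.range ((permOp (X := X) S - 1).prod (permOp (X := X) T - 1))) :=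
      rfl
    omega

end Fermat.Agent.S21.LinAlg
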