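/-
S21 package `MaxMod`: the maximum modulus principle on `X₀(N)`.

A holomorphic function `E` on the upper half-plane whose modulus is `Γ₀(N)`-invariant and which, at
every cusp `δ ∞` (`δ ∈ SL(2, ℤ)`), is invariant under `w ↦ w + N` and bounded, is constant.

Proof: for the finitely many cosets `q ∈ SL(2, ℤ) ⧸ Γ₀(N)` consider `E_q w = E (q.out⁻¹ • w)` and its
cusp function `φ_q` on the unit disc (in the parameter `exp (2 π i w / N)`).  Every value `‖E z‖` is
a value of some `‖φ_q‖` on the compact disc of radius `exp (-π / N)` (move `z` to the standard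
fundamental domain), so the maximum of the finitely many `‖φ_q‖` over this compact disc is a global
maximum of `‖E‖`, attained by some `φ_q₀` at an interior point of the unit disc; by the maximum
modulus principle `φ_q₀` is constant, hence so is `E`.
-/
import Fermat.Agent.S21.Interfaces

set_option autoImplicit false

open UpperHalfPlane CongruenceSubgroup Filter Topology
open scoped MatrixGroups ModularForm Manifold

namespace Fermat.Agent.S21.MaxMod

noncomputable section

/-- A function on `ℍ` invariant under the translation by `h` gives an `h`-periodic function on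
`ℂ` after composing with `ofComplex`. -/
theorem periodic_comp_ofComplex {f : ℍ → ℂ} {h : ℝ} (hf : ∀ w : ℍ, f (h +ᵥ w) = f w) :
    Function.Periodic (f ∘ ofComplex) (h : ℂ) := by
  intro w
  by_cases hw : 0 < w.im
  · have hw' : 0 < (w + (h : ℂ)).im := by simpa using hw
    simp only [Function.comp_apply, ofComplex_apply_of_im_pos hw', ofComplex_apply_of_im_pos hw]
    rw [← hf ⟨w, hw⟩]
    congr 1
    ext
    simp [add_comm]
  · have hw0 : w.im ≤ 0 := not_lt.mp hw
    have hw' : (w + (h : ℂ)).im ≤ 0 := by simpa using hw0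
    simp [ofComplex_apply_of_im_nonpos hw', ofComplex_apply_of_im_nonpos hw0]

/-- If `1 / 2 ≤ im ξ` then `‖qParam h ξ‖ ≤ exp (-π / h)` (for `0 < h`). -/
theorem norm_qParam_le {h : ℝ} (hh : 0 < h) {ξ : ℂ} (hξ : 1 / 2 ≤ ξ.im) :
    ‖Function.Periodic.qParam h ξ‖ ≤ Real.exp (-Real.pi / h) := by
  rw [Function.Periodic.norm_qParam, Real.exp_le_exp]
  apply div_le_div_of_nonneg_right _ hh.le
  nlinarith [Real.pi_pos]

/-- Maximum modulus principle for a finite family of periodic holomorphic functions on `ℍ`,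
bounded at `i∞`, such that every value of a member of the family is dominated by a value of some
member at a point of imaginary part `≥ 1 / 2`: some member of the family is constant. -/
theorem exists_const_of_family {ι : Type} [Finite ι] [Nonempty ι] {h : ℝ} (hh : 0 < h)
    (F : ι → ℍ → ℂ) (hhol : ∀ i, MDifferentiable 𝓘(ℂ) 𝓘(ℂ) (F i))
    (hper : ∀ (i : ι) (w : ℍ), F i (h +ᵥ w) = F i w)
    (hbdd : ∀ i, IsBoundedAtImInfty (F i))
    (hfd : ∀ (i : ι) (z : ℍ), ∃ (j : ι) (ξ : ℍ), 1 / 2 ≤ ξ.im ∧ ‖F i z‖ ≤ ‖F j ξ‖) :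
    ∃ i₀ : ι, ∀ z w : ℍ, F i₀ z = F i₀ w := by
  have hper' : ∀ i, Function.Periodic (F i ∘ ofComplex) (h : ℂ) :=
    fun i => periodic_comp_ofComplex (hper i)
  have hφdiff : ∀ i, DifferentiableOn ℂ (cuspFunction h (F i)) (Metric.ball 0 1) :=
    fun i => differentiableOn_cuspFunction_ball hh (hper' i) (hhol i) (hbdd i)
  have hφeq : ∀ (i : ι) (w : ℍ), cuspFunction h (F i) (Function.Periodic.qParam h w) = F i w :=
    fun i w => eq_cuspFunction w hh.ne' (hper' i)
  -- the compact disc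
  have hr0 : 0 ≤ Real.exp (-Real.pi / h) := (Real.exp_pos _).le
  have hr1 : Real.exp (-Real.pi / h) < 1 := by
    rw [Real.exp_lt_one_iff]
    exact div_neg_of_neg_of_pos (neg_lt_zero.mpr Real.pi_pos) hh
  have hKsub : Metric.closedBall (0 : ℂ) (Real.exp (-Real.pi / h)) ⊆ Metric.ball 0 1 :=
    Metric.closedBall_subset_ball hr1
  -- maxima on the compact disc
  have hmax : ∀ i, ∃ x ∈ Metric.closedBall (0 : ℂ) (Real.exp (-Real.pi / h)),
      IsMaxOn (fun y => ‖cuspFunction h (F i) y‖)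
        (Metric.closedBall (0 : ℂ) (Real.exp (-Real.pi / h))) x := fun i =>
    (isCompact_closedBall (0 : ℂ) _).exists_isMaxOn (Metric.nonempty_closedBall.mpr hr0)
      ((hφdiff i).continuousOn.mono hKsub).norm
  choose x hxK hxmax using hmax
  obtain ⟨i₀, hi₀⟩ := Finite.exists_max (fun i => ‖cuspFunction h (F i) (x i)‖)
  -- global bound
  have hglob : ∀ (i : ι) (z : ℍ), ‖F i z‖ ≤ ‖cuspFunction h (F i₀) (x i₀)‖ := by
    intro i z
    obtain ⟨j, ξ, hξ, hle⟩ := hfd i z
    have hmem : Function.Periodic.qParam h (ξ : ℂ) ∈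
        Metric.closedBall (0 : ℂ) (Real.exp (-Real.pi / h)) := by
      rw [mem_closedBall_zero_iff]
      exact norm_qParam_le hh hξ
    calc ‖F i z‖ ≤ ‖F j ξ‖ := hle
      _ = ‖cuspFunction h (F j) (Function.Periodic.qParam h ξ)‖ := by rw [hφeq]
      _ ≤ ‖cuspFunction h (F j) (x j)‖ := hxmax j hmem
      _ ≤ ‖cuspFunction h (F i₀) (x i₀)‖ := hi₀ j
  -- the maximum on the unit disc
  have hismax : IsMaxOn (norm ∘ cuspFunction h (F i₀)) (Metric.ball 0 1) (x i₀) := by
    intro y hy
    show ‖cuspFunction h (F i₀) y‖ ≤ ‖cuspFunction h (F i₀) (x i₀)‖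
    rcases eq_or_ne y 0 with rfl | hy0
    · exact hxmax i₀ (Metric.mem_closedBall_self hr0)
    · have hy1 : ‖y‖ < 1 := mem_ball_zero_iff.mp hy
      have him : 0 < (Function.Periodic.invQParam h y).im :=
        Function.Periodic.im_invQParam_pos_of_norm_lt_one hh hy1 hy0
      have hyq : Function.Periodic.qParam h ((⟨_, him⟩ : ℍ) : ℂ) = y :=
        Function.Periodic.qParam_right_inv hh.ne' hy0
      rw [← hyq, hφeq]
      exact hglob i₀ _
  have hconst := Complex.eq_const_of_exists_max (hφdiff i₀) (hKsub (hxK i₀)) hismax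
  have hval : ∀ z : ℍ, F i₀ z = cuspFunction h (F i₀) (x i₀) := by
    intro z
    have hz : Function.Periodic.qParam h (z : ℂ) ∈ Metric.ball (0 : ℂ) 1 := by
      rw [mem_ball_zero_iff]
      exact Function.Periodic.norm_qParam_lt_one hh z.im_pos
    rw [← hφeq i₀ z]
    exact hconst hz
  exact ⟨i₀, fun z w => by rw [hval z, hval w]⟩

/-- The action of an element of `SL(2, ℤ)` on `ℍ` is holomorphic. -/
theorem mdifferentiable_SL_smul (g : SL(2, ℤ)) :
    MDifferentiable 𝓘(ℂ) 𝓘(ℂ) (fun w : ℍ => g • w) := by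
  have h : MDifferentiable 𝓘(ℂ) 𝓘(ℂ)
      (fun w : ℍ => (Matrix.SpecialLinearGroup.mapGL ℝ g : GL (Fin 2) ℝ) • w) :=
    mdifferentiable_smul (by simp)
  exact h

/-- **Maximum modulus principle on `X₀(N)`**. -/
theorem maxModStatement : Fermat.Agent.S21.MaxModStatement := by
  intro N _ E hE hnorm hper hbdd
  have hN : (0 : ℝ) < (N : ℝ) := Nat.cast_pos.mpr (Nat.pos_of_ne_zero (NeZero.ne N))
  -- the finite family indexed by the cosets
  have key : ∀ (g : SL(2, ℤ)) (w : ℍ),
      ‖E (g⁻¹ • w)‖ = ‖E ((Quotient.out (g : SL(2, ℤ) ⧸ Gamma0 N))⁻¹ • w)‖ := by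
    intro g w
    obtain ⟨γ, hγ⟩ := QuotientGroup.mk_out_eq_mul (Gamma0 N) g
    have h1 : g⁻¹ = (γ : SL(2, ℤ)) * (Quotient.out (g : SL(2, ℤ) ⧸ Gamma0 N))⁻¹ := by
      rw [hγ]; group
    rw [h1, mul_smul]
    exact hnorm γ γ.2 _
  obtain ⟨q₀, hq₀⟩ := exists_const_of_family (ι := SL(2, ℤ) ⧸ Gamma0 N) hN
    (fun q w => E ((Quotient.out q)⁻¹ • w))
    (fun q => hE.comp (mdifferentiable_SL_smul _))
    (fun q w => by
      have h2 : ((N : ℝ) +ᵥ w : ℍ) = (ModularGroup.T ^ N : SL(2, ℤ)) • w := by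
        rw [← zpow_natCast, modular_T_zpow_smul]
        simp
      show E ((Quotient.out q)⁻¹ • ((N : ℝ) +ᵥ w)) = E ((Quotient.out q)⁻¹ • w)
      rw [h2, ← mul_smul]
      exact hper _ w)
    (fun q => hbdd _)
    (fun q z => by
      obtain ⟨g, hg⟩ := ModularGroup.exists_one_half_le_im_smul ((Quotient.out q)⁻¹ • z)
      refine ⟨(g : SL(2, ℤ) ⧸ Gamma0 N), g • ((Quotient.out q)⁻¹ • z), hg, le_of_eq ?_⟩
      show ‖E ((Quotient.out q)⁻¹ • z)‖ = _
      rw [← key g, inv_smul_smul])
  intro z w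
  have h3 := hq₀ (Quotient.out q₀ • z) (Quotient.out q₀ • w)
  simpa only [inv_smul_smul] using h3

end

end Fermat.Agent.S21.MaxMod
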