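/-
S21 — package `OrbitBound`: the group-theoretic bound

  `dim Hom_par(Γ₀(N), ℂ) + #orb(S) + #orb(T) + #orb(S T) ≤ [SL(2, ℤ) : Γ₀(N)] + 2`

(`OrbitBoundStatement`), deduced from the linear algebra statement `LinAlgStatement` and the
Shapiro-type cocycle statement `CocycleStatement` of the S21 interface, applied to
`G = SL(2, ℤ)`, `Γ = Γ₀(N)`, `X = SL(2, ℤ) ⧸ Γ₀(N)`, the standard generators `S`, `T`, `n = N` and
`Par` = the set of elements of trace `±2`.  Combined with the orbit counts of the S24 effort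
(`CombIndexStatement`, `CombEllipticStatement`, `CombCuspStatement`) this gives the dimension bound
`dim Hom_par(Γ₀(N), ℂ) ≤ 2 * genusFormula N` (`DimStatement`).

Main declarations (all in the namespace `Fermat.Agent.S21.OrbitBound`):
* `orbitBoundStatement : LinAlgStatement → CocycleStatement → OrbitBoundStatement`;
* `dimStatement_of : OrbitBoundStatement → CombIndexStatement → CombEllipticStatement →
    CombCuspStatement → DimStatement`;
* `dimStatement : LinAlgStatement → CocycleStatement → DimStatement`.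
-/
import Fermat.Agent.S21.Interfaces
import Fermat.Agent.S24.Interfaces
import Fermat.Agent.S24.CombIndex
import Fermat.Agent.S24.CombCusp

set_option autoImplicit false

open CongruenceSubgroup ModularCurve ModularCurve.Period
open scoped MatrixGroups

namespace Fermat.Agent.S21.OrbitBound

/-! ## The parabolic set and the standard generators of `SL(2, ℤ)` -/

/-- The set of elements of `SL(2, ℤ)` of trace `±2`. -/
def Par : Set SL(2, ℤ) := {g | ((g : Matrix (Fin 2) (Fin 2) ℤ).trace) ^ 2 = 4}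

theorem mem_Par (g : SL(2, ℤ)) :
    g ∈ Par ↔ ((g : Matrix (Fin 2) (Fin 2) ℤ).trace) ^ 2 = 4 := Iff.rfl

/-- The prelude's parabolic homomorphisms are the interface's `parHoms` for the set `Par`. -/
theorem parabolicHoms_eq (N : ℕ) : parabolicHoms ℂ (Gamma0 N) ℂ = parHoms (Gamma0 N) Par := rfl

theorem closure_S_T :
    Subgroup.closure {ModularGroup.S, ModularGroup.T} = (⊤ : Subgroup SL(2, ℤ)) :=
  SpecialLinearGroup.SL2Z_generators

theorem S_sq : ModularGroup.S ^ 2 = (-1 : SL(2, ℤ)) := by decide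

theorem ST_cube : (ModularGroup.S * ModularGroup.T) ^ 3 = ModularGroup.S ^ 2 := by decide

theorem S_sq_central (g : SL(2, ℤ)) : g * ModularGroup.S ^ 2 = ModularGroup.S ^ 2 * g := by
  rw [S_sq, mul_neg, neg_mul, mul_one, one_mul]

theorem S_sq_mem_Gamma0 (N : ℕ) : ModularGroup.S ^ 2 ∈ Gamma0 N := by
  rw [S_sq, Gamma0_mem, Matrix.SpecialLinearGroup.coe_neg, Matrix.SpecialLinearGroup.coe_one,
    Matrix.neg_apply, Matrix.one_apply_ne (by decide), neg_zero, Int.cast_zero]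

theorem S_sq_mem_Par : ModularGroup.S ^ 2 ∈ Par := by
  rw [S_sq, mem_Par, Matrix.SpecialLinearGroup.coe_neg, Matrix.SpecialLinearGroup.coe_one,
    Matrix.trace_neg, Matrix.trace_one, Fintype.card_fin]
  norm_num

/-- The trace is invariant under conjugation. -/
theorem conj_mem_Par (g p : SL(2, ℤ)) (hp : p ∈ Par) : g⁻¹ * p * g ∈ Par := by
  have h : ((g⁻¹ * p * g : SL(2, ℤ)) : Matrix (Fin 2) (Fin 2) ℤ).trace
      = (p : Matrix (Fin 2) (Fin 2) ℤ).trace := by
    rw [Matrix.SpecialLinearGroup.coe_mul, Matrix.trace_mul_comm,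
      ← Matrix.SpecialLinearGroup.coe_mul, mul_inv_cancel_left]
  rw [mem_Par, h]
  exact hp

theorem T_pow_mem_Par (N : ℕ) : ModularGroup.T ^ N ∈ Par := by
  rw [mem_Par, ← zpow_natCast, ModularGroup.coe_T_zpow, Matrix.trace_fin_two_of]
  norm_num

/-- The lower left entry of a conjugate `g⁻¹ * T ^ N * g` is `- N * c ^ 2`, where `c` is the lower
left entry of `g`. -/
theorem conj_T_pow_apply_one_zero (N : ℕ) (g : SL(2, ℤ)) :
    ((g⁻¹ * ModularGroup.T ^ N * g : SL(2, ℤ)) : Matrix (Fin 2) (Fin 2) ℤ) 1 0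
      = -((N : ℤ) * ((g : Matrix (Fin 2) (Fin 2) ℤ) 1 0) ^ 2) := by
  rw [Matrix.SpecialLinearGroup.coe_mul, Matrix.SpecialLinearGroup.coe_mul,
    Matrix.SpecialLinearGroup.coe_inv, ← zpow_natCast, ModularGroup.coe_T_zpow,
    Matrix.adjugate_fin_two, Matrix.mul_apply, Fin.sum_univ_two, Matrix.mul_apply,
    Matrix.mul_apply, Fin.sum_univ_two, Fin.sum_univ_two]
  simp only [Matrix.of_apply, Matrix.cons_val_zero, Matrix.cons_val_one, Matrix.cons_val',
    Matrix.cons_val_fin_one]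
  ring

/-- Every conjugate of `T ^ N` lies in `Γ₀(N)`. -/
theorem conj_T_pow_mem_Gamma0 (N : ℕ) (g : SL(2, ℤ)) :
    g⁻¹ * ModularGroup.T ^ N * g ∈ Gamma0 N := by
  rw [Gamma0_mem, conj_T_pow_apply_one_zero]
  push_cast
  rw [ZMod.natCast_self, zero_mul, neg_zero]

/-! ## Elements acting trivially on a coset space -/

/-- An element all of whose conjugates lie in `Γ` acts trivially on `G ⧸ Γ`. -/
theorem smul_eq_self_of_conj_mem {G : Type} [Group G] (Γ : Subgroup G) (g : G)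
    (h : ∀ k : G, k⁻¹ * g * k ∈ Γ) (x : G ⧸ Γ) : g • x = x := by
  induction x using QuotientGroup.induction_on with
  | H k =>
    rw [MulAction.Quotient.smul_mk, smul_eq_mul, eq_comm, QuotientGroup.eq, ← mul_assoc]
    exact h k

theorem conj_S_sq (k : SL(2, ℤ)) : k⁻¹ * ModularGroup.S ^ 2 * k = ModularGroup.S ^ 2 := by
  rw [mul_assoc, ← S_sq_central, inv_mul_cancel_left]

theorem S_sq_smul (N : ℕ) (x : SL(2, ℤ) ⧸ Gamma0 N) : ModularGroup.S ^ 2 • x = x :=
  smul_eq_self_of_conj_mem _ _ (fun k => by rw [conj_S_sq]; exact S_sq_mem_Gamma0 N) x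

theorem ST_cube_smul (N : ℕ) (x : SL(2, ℤ) ⧸ Gamma0 N) :
    (ModularGroup.S * ModularGroup.T) ^ 3 • x = x := by
  rw [ST_cube]
  exact S_sq_smul N x

theorem T_pow_smul (N : ℕ) (x : SL(2, ℤ) ⧸ Gamma0 N) : ModularGroup.T ^ N • x = x :=
  smul_eq_self_of_conj_mem _ _ (conj_T_pow_mem_Gamma0 N) x

/-! ## The orbit bound -/

/-- (C-orb) from (C-lin) and (C-coc). -/
theorem orbitBoundStatement (hL : LinAlgStatement) (hC : CocycleStatement) :
    OrbitBoundStatement := by
  intro N _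
  obtain ⟨Θ, hinj, hrange, hdisj⟩ := hC SL(2, ℤ) (Gamma0 N) ModularGroup.S ModularGroup.T N Par
    closure_S_T S_sq_central (S_sq_mem_Gamma0 N) S_sq_mem_Par ST_cube conj_mem_Par
    (T_pow_mem_Par N) (conj_T_pow_mem_Gamma0 N)
  obtain ⟨h1, h2, h3⟩ := hL SL(2, ℤ) (SL(2, ℤ) ⧸ Gamma0 N) ModularGroup.S ModularGroup.T N
    (Nat.pos_of_ne_zero (NeZero.ne N)) closure_S_T (S_sq_smul N) (ST_cube_smul N) (T_pow_smul N)
  rw [parabolicHoms_eq]
  have hfd : FiniteDimensional ℂ ↥(parHoms (Gamma0 N) Par) :=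
    FiniteDimensional.of_injective Θ hinj
  refine ⟨hfd, ?_⟩
  have e1 : Module.finrank ℂ ↥(LinearMap.range Θ)
      = Module.finrank ℂ ↥(parHoms (Gamma0 N) Par) := LinearMap.finrank_range_of_inj hinj
  have e2 := Submodule.finrank_sup_add_finrank_inf_eq (LinearMap.range Θ)
    (coboundaryPairs (X := SL(2, ℤ) ⧸ Gamma0 N) ModularGroup.S ModularGroup.T)
  rw [disjoint_iff.mp hdisj, finrank_bot, add_zero] at e2
  have e3 : Module.finrank ℂ ↥(LinearMap.range Θ ⊔
        coboundaryPairs (X := SL(2, ℤ) ⧸ Gamma0 N) ModularGroup.S ModularGroup.T)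
      ≤ Module.finrank ℂ ↥(cocyclePairs (X := SL(2, ℤ) ⧸ Gamma0 N) ModularGroup.S
        ModularGroup.T N) :=
    Submodule.finrank_mono (sup_le hrange h3)
  omega

/-! ## The dimension bound -/

/-- (C) from (C-orb) and the orbit counts (C1), (C2), (C3) of the S24 effort. -/
theorem dimStatement_of (hO : OrbitBoundStatement)
    (hI : Fermat.Agent.S24.CombIndexStatement) (hE : Fermat.Agent.S24.CombEllipticStatement)
    (hCu : Fermat.Agent.S24.CombCuspStatement) : DimStatement := by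
  intro N _
  obtain ⟨hfd, hb⟩ := hO N
  refine ⟨hfd, ?_⟩
  have hI' : Nat.card (SL(2, ℤ) ⧸ Gamma0 N) = dedekindPsi N := hI N
  obtain ⟨hE2, hE3⟩ := hE N
  have hE2' : 2 * orbCount (SL(2, ℤ) ⧸ Gamma0 N) ModularGroup.S
      = Nat.card (SL(2, ℤ) ⧸ Gamma0 N) + nuTwo N := hE2
  have hE3' : 3 * orbCount (SL(2, ℤ) ⧸ Gamma0 N) (ModularGroup.S * ModularGroup.T)
      = Nat.card (SL(2, ℤ) ⧸ Gamma0 N) + 2 * nuThree N := hE3
  have hCu' : orbCount (SL(2, ℤ) ⧸ Gamma0 N) ModularGroup.T = cuspCount N := hCu N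
  have hbQ : (Module.finrank ℂ ↥(parabolicHoms ℂ (Gamma0 N) ℂ) : ℚ)
      + (orbCount (SL(2, ℤ) ⧸ Gamma0 N) ModularGroup.S : ℚ)
      + (orbCount (SL(2, ℤ) ⧸ Gamma0 N) ModularGroup.T : ℚ)
      + (orbCount (SL(2, ℤ) ⧸ Gamma0 N) (ModularGroup.S * ModularGroup.T) : ℚ)
      ≤ (Nat.card (SL(2, ℤ) ⧸ Gamma0 N) : ℚ) + 2 := by exact_mod_cast hb
  have hIQ : (Nat.card (SL(2, ℤ) ⧸ Gamma0 N) : ℚ) = (dedekindPsi N : ℚ) := by exact_mod_cast hI'
  have hE2Q : 2 * (orbCount (SL(2, ℤ) ⧸ Gamma0 N) ModularGroup.S : ℚ)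
      = (Nat.card (SL(2, ℤ) ⧸ Gamma0 N) : ℚ) + (nuTwo N : ℚ) := by exact_mod_cast hE2'
  have hE3Q : 3 * (orbCount (SL(2, ℤ) ⧸ Gamma0 N) (ModularGroup.S * ModularGroup.T) : ℚ)
      = (Nat.card (SL(2, ℤ) ⧸ Gamma0 N) : ℚ) + 2 * (nuThree N : ℚ) := by exact_mod_cast hE3'
  have hCuQ : (orbCount (SL(2, ℤ) ⧸ Gamma0 N) ModularGroup.T : ℚ) = (cuspCount N : ℚ) := by
    exact_mod_cast hCu'
  rw [genusFormula]
  linarith

/-- (C) from (C-lin) and (C-coc), using the landed orbit counts of the S24 effort. -/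
theorem dimStatement (hL : LinAlgStatement) (hC : CocycleStatement) : DimStatement :=
  dimStatement_of (orbitBoundStatement hL hC) Fermat.Agent.S24.CombIndex.combIndexStatement
    Fermat.Agent.S24.CombIndex.combEllipticStatement Fermat.Agent.S24.CombCusp.combCuspStatement

end Fermat.Agent.S21.OrbitBound
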