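/-
S21 work package `Parabolic`: period homomorphisms of weight-2 cusp forms of level `Γ₀(N)` vanish
on the elements of trace `±2` (statement (P2) of the interface), deduced from the existence of an
equivariant primitive (P1), the base-point independent formula for the period map (P1') and the
classification of the trace `±2` elements of `SL(2, ℤ)` up to conjugacy (T).
-/
import Fermat.Agent.S21.Interfaces

set_option autoImplicit false

open UpperHalfPlane CongruenceSubgroup ModularCurve ModularCurve.Period Filter Topology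
open scoped MatrixGroups ModularForm Manifold ComplexConjugate

namespace Fermat.Agent.S21.Parabolic

/-- Real translations preserve the filter `atImInfty`. -/
theorem tendsto_vadd_atImInfty (x : ℝ) :
    Tendsto (fun w : ℍ => x +ᵥ w) atImInfty atImInfty := by
  rw [atImInfty, tendsto_comap_iff]
  have h : (UpperHalfPlane.im ∘ fun w : ℍ => x +ᵥ w) = UpperHalfPlane.im := by
    funext w
    exact UpperHalfPlane.vadd_im x w
  rw [h]
  exact tendsto_comap

/-- The action of `δ * T ^ m * δ⁻¹` on the point `δ • w`. -/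
theorem conj_T_zpow_smul (δ : SL(2, ℤ)) (m : ℤ) (w : ℍ) :
    (δ * ModularGroup.T ^ m * δ⁻¹) • (δ • w) = δ • ((m : ℝ) +ᵥ w) := by
  rw [← mul_smul, inv_mul_cancel_right, mul_smul, UpperHalfPlane.modular_T_zpow_smul]

/-- (P2) Period homomorphisms are parabolic. -/
theorem parabolicStatement (hP : PrimitiveStatement) (hE : PeriodMapEqStatement)
    (hT : TraceConjStatement) : ParabolicStatement := by
  intro N _ f
  rw [mem_parabolicHoms_iff]
  intro γ hγ
  obtain ⟨F, hF⟩ := hP N f
  have hprim : IsPrim (⇑f) F := hF.1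
  obtain ⟨δ, m, hδ⟩ := hT (γ : SL(2, ℤ)) hγ
  obtain ⟨L, hL⟩ := hF.2.2.2 δ
  -- the period of `γ`, computed at the base point `δ • w`
  have key : ∀ w : ℍ,
      periodMap N f (Additive.ofMul γ) = F (δ • ((m : ℝ) +ᵥ w)) - F (δ • w) := by
    intro w
    have hsmul : (γ : SL(2, ℤ)) • (δ • w) = δ • ((m : ℝ) +ᵥ w) := by
      rcases hδ with h | h
      · rw [h, conj_T_zpow_smul]
      · rw [h, ModularGroup.SL_neg_smul, conj_T_zpow_smul]
    rw [hE N f F hprim γ (δ • w), hsmul]
  have h1 : Tendsto (fun w : ℍ => F (δ • ((m : ℝ) +ᵥ w)) - F (δ • w)) atImInfty (𝓝 (L - L)) :=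
    (hL.comp (tendsto_vadd_atImInfty (m : ℝ))).sub hL
  have h2 : Tendsto (fun _ : ℍ => periodMap N f (Additive.ofMul γ)) atImInfty (𝓝 (L - L)) :=
    h1.congr fun w => (key w).symm
  have h3 : periodMap N f (Additive.ofMul γ) = L - L :=
    tendsto_nhds_unique tendsto_const_nhds h2
  rw [h3, sub_self]

end Fermat.Agent.S21.Parabolic
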