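/-
S21 package `PrimConj`: chain rule for the anti-holomorphic involution `z ↦ -conj z` of the upper
half-plane (statement (A4) of the interface) and the basic facts on `jz` (statement (A5)).
-/
import Fermat.Agent.S21.Interfaces

set_option autoImplicit false

open UpperHalfPlane CongruenceSubgroup ModularCurve ModularCurve.Period Filter Topology
open scoped MatrixGroups ModularForm Manifold ComplexConjugate

namespace Fermat.Agent.S21.PrimConj

noncomputable section

/-- The underlying complex number of `jz z`. -/
theorem coe_jz (z : ℍ) : ((jz z : ℍ) : ℂ) = -conj (z : ℂ) := rfl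

/-- `jz` preserves imaginary parts. -/
theorem im_jz (z : ℍ) : (jz z).im = z.im := by
  show (-conj (z : ℂ)).im = (z : ℂ).im
  simp

/-- On the upper half-plane, `jz ∘ ofComplex` is `x ↦ ofComplex (-conj x)`. -/
theorem jz_ofComplex {x : ℂ} (hx : 0 < x.im) : jz (ofComplex x) = ofComplex (-conj x) := by
  have hx' : 0 < (-conj x).im := by simpa using hx
  rw [ofComplex_apply_of_im_pos hx, ofComplex_apply_of_im_pos hx']
  rfl

/-- (A4) Chain rule for `z ↦ -conj z`: if `F` is a primitive of `f`, then `z ↦ conj (F (jz z))` is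
a primitive of `z ↦ -conj (f (jz z))`. -/
theorem primConjStatement : PrimConjStatement := by
  intro f F hF τ
  -- the derivative of `F ∘ ofComplex` at the point `-conj τ = ↑(jz τ)`
  have h1 : HasDerivAt (F ∘ ofComplex) (f (jz τ)) (-conj (τ : ℂ)) := hF (jz τ)
  -- precompose with `y ↦ -y`
  have h2 : HasDerivAt (fun y : ℂ => (F ∘ ofComplex) (-y)) (-(f (jz τ))) (conj (τ : ℂ)) := by
    have hneg : HasDerivAt (fun y : ℂ => -y) (-1) (conj (τ : ℂ)) := (hasDerivAt_id _).neg
    have h := HasDerivAt.comp (conj (τ : ℂ)) h1 hneg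
    simpa [Function.comp_def] using h
  -- conjugate on both sides
  have h3 : HasDerivAt (conj ∘ (fun y : ℂ => (F ∘ ofComplex) (-y)) ∘ conj)
      (-conj (f (jz τ))) (τ : ℂ) := by
    have h := h2.conj_conj
    simpa using h
  -- the two functions agree on the upper half-plane, which is a neighbourhood of `τ`
  refine h3.congr_of_eventuallyEq ?_
  have hopen : IsOpen {x : ℂ | 0 < x.im} := isOpen_lt continuous_const Complex.continuous_im
  filter_upwards [hopen.mem_nhds τ.im_pos] with x hx
  have hx' : 0 < x.im := hx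
  simp only [Function.comp_apply]
  rw [jz_ofComplex hx']

/-- Compatibility of `jz` with the Möbius action: `jz (γ • z) = jConjSL γ • jz z`. -/
theorem jz_smul (γ : SL(2, ℤ)) (z : ℍ) : jz (γ • z) = jConjSL γ • jz z := by
  apply UpperHalfPlane.ext
  rw [coe_jz, coe_specialLinearGroup_apply, coe_specialLinearGroup_apply, coe_jz]
  have e00 : (jConjSL γ) 0 0 = γ 0 0 := jConjMat_apply_zero_zero _
  have e01 : (jConjSL γ) 0 1 = -γ 0 1 := jConjMat_apply_zero_one _
  have e10 : (jConjSL γ) 1 0 = -γ 1 0 := jConjMat_apply_one_zero _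
  have e11 : (jConjSL γ) 1 1 = γ 1 1 := jConjMat_apply_one_one _
  rw [e00, e01, e10, e11]
  simp only [map_div₀, map_add, map_mul, map_neg, algebraMap_int_eq, Int.coe_castRingHom,
    Complex.ofReal_intCast, Complex.ofReal_neg, map_intCast]
  rw [← neg_div]
  congr 1 <;> ring

/-- `jz` is an involution. -/
theorem jz_jz (z : ℍ) : jz (jz z) = z := by
  apply UpperHalfPlane.ext
  rw [coe_jz, coe_jz]
  simp

/-- `jz` preserves the filter `atImInfty`. -/
theorem tendsto_jz : Tendsto jz atImInfty atImInfty := by
  unfold atImInfty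
  rw [tendsto_comap_iff]
  have h : UpperHalfPlane.im ∘ jz = UpperHalfPlane.im := funext im_jz
  rw [h]
  exact tendsto_comap

/-- (A5) Basic facts on `jz`: compatibility with the action, involutivity, behaviour at `i∞`. -/
theorem jzStatement : JzStatement :=
  ⟨jz_smul, jz_jz, tendsto_jz⟩

end

end Fermat.Agent.S21.PrimConj
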