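/-
S21 package `PrimExists` (statement (A1) of the S21 interface).

A holomorphic function `g` on the upper half-plane which is periodic of period `h > 0` and tends to
`0` at `i∞` has a holomorphic primitive `G` that tends to `0` at `i∞`.

Proof: write `g τ = φ (q τ)` with `q τ = exp (2 π i τ / h)` and `φ` holomorphic on the unit disc,
`φ 0 = 0` (Mathlib's `cuspFunction`).  Then `φ q = q * ψ q` with `ψ = dslope φ 0` holomorphic on the
disc; `ψ` has a primitive `Ψ` on the disc, and `G τ = h / (2 π i) * (Ψ (q τ) - Ψ 0)` works.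
-/
import Fermat.Agent.S21.Interfaces

set_option autoImplicit false

open UpperHalfPlane Filter Topology
open scoped Manifold Real

namespace Fermat.Agent.S21.PrimExists

/-- Derivative of the parameter `q = exp (2 π i z / h)`. -/
theorem hasDerivAt_qParam (h : ℝ) (z : ℂ) :
    HasDerivAt (Function.Periodic.qParam h)
      (Function.Periodic.qParam h z * (2 * π * Complex.I / h)) z := by
  have h1 : HasDerivAt (fun w : ℂ => 2 * π * Complex.I * w / h) (2 * π * Complex.I / h) z := by
    have := ((hasDerivAt_id z).const_mul (2 * π * Complex.I)).div_const (h : ℂ)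
    simpa using this
  exact h1.cexp

/-- A holomorphic function on the unit disc vanishing at `0` is `q * ψ q` where `ψ` has a
primitive on the disc. -/
theorem exists_prim_dslope (φ : ℂ → ℂ) (hφ : DifferentiableOn ℂ φ (Metric.ball 0 1))
    (hφ0 : φ 0 = 0) :
    ∃ ψ Ψ : ℂ → ℂ, (∀ q : ℂ, φ q = q * ψ q) ∧
      ∀ q ∈ Metric.ball (0 : ℂ) 1, HasDerivAt Ψ (ψ q) q := by
  have hψdiff : DifferentiableOn ℂ (dslope φ 0) (Metric.ball 0 1) :=
    (Complex.differentiableOn_dslope (Metric.ball_mem_nhds (0 : ℂ) one_pos)).mpr hφ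
  obtain ⟨Ψ, hΨ⟩ := hψdiff.isExactOn_ball
  refine ⟨dslope φ 0, Ψ, fun q => ?_, hΨ⟩
  have := sub_smul_dslope φ 0 q
  simpa [hφ0] using this.symm

/-- (A1) A holomorphic function on `ℍ` that is periodic (period `h > 0`) and tends to `0` at `i∞`
has a primitive that tends to `0` at `i∞`. -/
theorem primExistsStatement : Fermat.Agent.S21.PrimExistsStatement := by
  intro g h hh hper hhol hzero
  have hbdd : IsBoundedAtImInfty g := hzero.isBoundedAtImInfty
  have hφdiff : DifferentiableOn ℂ (UpperHalfPlane.cuspFunction h g) (Metric.ball 0 1) :=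
    UpperHalfPlane.differentiableOn_cuspFunction_ball hh hper hhol hbdd
  have hφ0 : UpperHalfPlane.cuspFunction h g 0 = 0 := hzero.cuspFunction_apply_zero hh
  have hφq : ∀ τ : ℍ, UpperHalfPlane.cuspFunction h g (Function.Periodic.qParam h τ) = g τ :=
    fun τ => UpperHalfPlane.eq_cuspFunction τ hh.ne' hper
  obtain ⟨ψ, Ψ, hφψ, hΨ⟩ := exists_prim_dslope _ hφdiff hφ0
  have hc : (2 * π * Complex.I : ℂ) ≠ 0 := Complex.two_pi_I_ne_zero
  have hh' : (h : ℂ) ≠ 0 := Complex.ofReal_ne_zero.mpr hh.ne'
  refine ⟨fun τ => (h / (2 * π * Complex.I)) * (Ψ (Function.Periodic.qParam h τ) - Ψ 0), ?_, ?_⟩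
  · intro τ
    have hτ : 0 < (τ : ℂ).im := τ.im_pos
    have hq : Function.Periodic.qParam h (τ : ℂ) ∈ Metric.ball (0 : ℂ) 1 :=
      mem_ball_zero_iff.mpr (Function.Periodic.norm_qParam_lt_one hh hτ)
    have h1 : HasDerivAt (fun z : ℂ => Ψ (Function.Periodic.qParam h z))
        (ψ (Function.Periodic.qParam h τ) *
          (Function.Periodic.qParam h τ * (2 * π * Complex.I / h))) (τ : ℂ) :=
      (hΨ _ hq).comp (τ : ℂ) (hasDerivAt_qParam h τ)
    have h2 : HasDerivAt
        (fun z : ℂ => (h / (2 * π * Complex.I)) * (Ψ (Function.Periodic.qParam h z) - Ψ 0))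
        ((h / (2 * π * Complex.I)) * (ψ (Function.Periodic.qParam h τ) *
          (Function.Periodic.qParam h τ * (2 * π * Complex.I / h)))) (τ : ℂ) :=
      (h1.sub_const (Ψ 0)).const_mul _
    have h3 : (h / (2 * π * Complex.I)) * (ψ (Function.Periodic.qParam h τ) *
          (Function.Periodic.qParam h τ * (2 * π * Complex.I / h))) = g τ := by
      rw [← hφq τ, hφψ]
      field_simp
    rw [h3] at h2
    refine h2.congr_of_eventuallyEq ?_
    filter_upwards [isOpen_upperHalfPlaneSet.mem_nhds hτ] with z hz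
    simp only [Function.comp_apply, ofComplex_apply_of_im_pos hz]
  · have hcont : ContinuousAt Ψ 0 :=
      (hΨ 0 (Metric.mem_ball_self one_pos)).continuousAt
    have h1 : Tendsto (fun τ : ℍ => Ψ (Function.Periodic.qParam h τ)) atImInfty (𝓝 (Ψ 0)) :=
      hcont.tendsto.comp (UpperHalfPlane.qParam_tendsto_atImInfty hh)
    have h2 := (h1.sub_const (Ψ 0)).const_mul ((h : ℂ) / (2 * π * Complex.I))
    simpa using h2

end Fermat.Agent.S21.PrimExists
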