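/-
S21 package `PrimSlash`: uniqueness of holomorphic primitives on the upper half-plane up to an
additive constant (`PrimConstStatement`) and the chain rule for primitives under the action of
`SL(2, ℤ)` by Möbius transformations (`PrimSlashStatement`).

* `primConstStatement`: two primitives of the same function on `ℍ` differ by a constant, since
  the difference (transported to `ℂ` along `ofComplex`) has derivative `0` on the convex domain
  `{z | 0 < z.im}`.
* `primSlashStatement`: if `F` is a primitive of `f`, then `w ↦ F (δ • w)` is a primitive of the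
  weight-2 slash `f ∣[2] δ`, because `z ↦ ↑(δ • ofComplex z)` has derivative `1 / denom δ τ ^ 2`
  at `τ` (Mathlib: `UpperHalfPlane.hasStrictDerivAt_smul`).
-/
import Fermat.Agent.S21.Interfaces

set_option autoImplicit false

open UpperHalfPlane Filter Topology
open scoped MatrixGroups ModularForm

namespace Fermat.Agent.S21.PrimSlash

/-- The difference of two primitives of `f`, transported to `ℂ`, has derivative `0` at every
point of the upper half-plane set. -/
theorem hasDerivAt_sub_comp_ofComplex {f F₁ F₂ : ℍ → ℂ} (h₁ : IsPrim f F₁) (h₂ : IsPrim f F₂)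
    {w : ℂ} (hw : 0 < w.im) :
    HasDerivAt (fun x : ℂ => (F₁ ∘ ofComplex) x - (F₂ ∘ ofComplex) x) 0 w := by
  have h := (h₁ ⟨w, hw⟩).sub (h₂ ⟨w, hw⟩)
  rw [sub_self] at h
  exact h

/-- (A2) Two primitives of the same function differ by a constant. -/
theorem primConstStatement : Fermat.Agent.S21.PrimConstStatement := by
  intro f F₁ F₂ h₁ h₂
  refine ⟨F₁ UpperHalfPlane.I - F₂ UpperHalfPlane.I, fun z => ?_⟩
  have key := isOpen_upperHalfPlaneSet.is_const_of_deriv_eq_zero
    (Convex.isPreconnected (convex_halfSpace_im_gt 0))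
    (f := fun x : ℂ => (F₁ ∘ ofComplex) x - (F₂ ∘ ofComplex) x)
    (fun w hw =>
      (hasDerivAt_sub_comp_ofComplex h₁ h₂ hw).differentiableAt.differentiableWithinAt)
    (fun w hw => (hasDerivAt_sub_comp_ofComplex h₁ h₂ hw).deriv)
    z.im_pos UpperHalfPlane.I.im_pos
  simpa only [Function.comp_apply, ofComplex_apply] using key

/-- The image in `GL(2, ℝ)` of an element of `SL(2, ℤ)` has determinant `1`. -/
theorem det_mapGL_eq_one (δ : SL(2, ℤ)) :
    ((Matrix.SpecialLinearGroup.mapGL ℝ δ : GL (Fin 2) ℝ) : Matrix (Fin 2) (Fin 2) ℝ).det = 1 :=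
  congrArg Units.val (Matrix.SpecialLinearGroup.det_mapGL (S := ℝ) δ)

/-- The Möbius action of `δ : SL(2, ℤ)`, transported to `ℂ` along `ofComplex`, has derivative
`denom δ τ ^ (-2)` at `τ`. -/
theorem hasDerivAt_smul_ofComplex (δ : SL(2, ℤ)) (τ : ℍ) :
    HasDerivAt (fun z : ℂ => ((δ • ofComplex z : ℍ) : ℂ)) (denom δ τ ^ (-2 : ℤ)) ↑τ := by
  have hg : 0 < ((Matrix.SpecialLinearGroup.mapGL ℝ δ : GL (Fin 2) ℝ) :
      Matrix (Fin 2) (Fin 2) ℝ).det := by
    rw [det_mapGL_eq_one]
    exact one_pos
  have h := (UpperHalfPlane.hasStrictDerivAt_smul hg τ).hasDerivAt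
  rw [det_mapGL_eq_one, Complex.ofReal_one, one_div, ← zpow_natCast, ← zpow_neg] at h
  exact h

/-- (A3) Chain rule for Möbius transformations: if `F` is a primitive of `f` then `F ∘ δ` is a
primitive of the weight-2 slash `f ∣[2] δ`. -/
theorem primSlashStatement : Fermat.Agent.S21.PrimSlashStatement := by
  intro f F δ hF τ
  have h1 := hasDerivAt_smul_ofComplex δ τ
  have h2 : HasDerivAt (F ∘ ofComplex) (f (δ • τ)) ((δ • ofComplex (τ : ℂ) : ℍ) : ℂ) := by
    rw [ofComplex_apply]
    exact hF (δ • τ)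
  have h3 := HasDerivAt.comp (τ : ℂ) h2 h1
  have e : (fun w : ℍ => F (δ • w)) ∘ ofComplex
      = (F ∘ ofComplex) ∘ (fun z : ℂ => ((δ • ofComplex z : ℍ) : ℂ)) := by
    funext z
    simp only [Function.comp_apply, ofComplex_apply]
  rw [e, ModularForm.SL_slash_apply]
  exact h3

end Fermat.Agent.S21.PrimSlash
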