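/-
S21 package `Primitive`: existence of equivariant primitives of weight-2 cusp forms of level
`Γ₀(N)`, computation of the period map with an arbitrary primitive and an arbitrary base point,
and linearity of the period map.  Everything is derived from the interface statements on
holomorphic primitives on the upper half-plane (`PrimExistsStatement`, `PrimConstStatement`,
`PrimSlashStatement`, `CuspSlashStatement`).
-/
import Fermat.Agent.S21.Interfaces

set_option autoImplicit false

open UpperHalfPlane CongruenceSubgroup ModularCurve ModularCurve.Period Filter Topology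
open scoped MatrixGroups ModularForm Manifold ComplexConjugate

namespace Fermat.Agent.S21.Primitive

/-- (P1) Every weight-2 cusp form of level `Γ₀(N)` has an equivariant primitive. -/
theorem primitiveStatement (h1 : PrimExistsStatement) (h2 : PrimConstStatement)
    (h3 : PrimSlashStatement) (h4 : CuspSlashStatement) : PrimitiveStatement := by
  intro N _ f
  obtain ⟨hδ, hγ⟩ := h4 N f
  have hN : (0 : ℝ) < (N : ℝ) := Nat.cast_pos.mpr (Nat.pos_of_ne_zero (NeZero.ne N))
  -- the form itself is its slash by `1`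
  have hone := hδ 1
  rw [SlashAction.slash_one] at hone
  obtain ⟨hmd, hper, hzero⟩ := hone
  obtain ⟨F, hF, hFlim⟩ := h1 (⇑f) (N : ℝ) hN hper hmd hzero
  refine ⟨F, hF, hFlim, ?_, ?_⟩
  · -- equivariance
    intro γ
    have hFγ : IsPrim (⇑f) (fun w : ℍ => F ((γ : SL(2, ℤ)) • w)) := by
      have h := h3 (⇑f) F (γ : SL(2, ℤ)) hF
      rwa [hγ (γ : SL(2, ℤ)) γ.2] at h
    exact h2 (⇑f) _ F hFγ hF
  · -- limits at the cusps
    intro δ
    obtain ⟨hmdδ, hperδ, hzeroδ⟩ := hδ δ
    obtain ⟨G, hG, hGlim⟩ := h1 (⇑f ∣[(2 : ℤ)] δ) (N : ℝ) hN hperδ hmdδ hzeroδ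
    have hFδ : IsPrim (⇑f ∣[(2 : ℤ)] δ) (fun w : ℍ => F (δ • w)) := h3 (⇑f) F δ hF
    obtain ⟨c, hc⟩ := h2 (⇑f ∣[(2 : ℤ)] δ) _ G hFδ hG
    refine ⟨c, ?_⟩
    have hfun : (fun w : ℍ => F (δ • w)) = fun w : ℍ => G w + c := by
      funext w
      have hw : F (δ • w) - G w = c := hc w
      rw [← hw]
      ring
    rw [hfun]
    simpa using hGlim.add_const c

/-- (P1') The period map can be computed with any primitive and any base point. -/
theorem periodMapEqStatement (hP : PrimitiveStatement) (h2 : PrimConstStatement) :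
    PeriodMapEqStatement := by
  intro N _ f F hF γ z
  obtain ⟨F₁, hF₁⟩ := hP N f
  obtain ⟨F₀, h₀, hpm⟩ := periodMap_def N f hF₁
  rw [hpm, IsEquivariantPrimitive.periodHom_apply, ← h₀.2.2.1.sub_eq_period γ z]
  obtain ⟨c, hc⟩ := h2 (⇑f) F F₀ hF h₀.1
  have e1 := hc ((γ : SL(2, ℤ)) • z)
  have e2 := hc z
  linear_combination e2 - e1

/-- (P1'') The period map is linear. -/
theorem linearStatement (hP : PrimitiveStatement) (hE : PeriodMapEqStatement) :
    LinearStatement := by
  intro N _
  constructor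
  · intro f g
    obtain ⟨Ff, hFf⟩ := hP N f
    obtain ⟨Fg, hFg⟩ := hP N g
    have hsum : IsPrim (⇑(f + g)) (fun z : ℍ => Ff z + Fg z) := by
      intro τ
      have h := (hFf.1 τ).add (hFg.1 τ)
      exact h
    apply AddMonoidHom.ext
    intro x
    obtain ⟨γ, rfl⟩ := Additive.ofMul.surjective x
    rw [AddMonoidHom.add_apply, hE N (f + g) _ hsum γ UpperHalfPlane.I,
      hE N f Ff hFf.1 γ UpperHalfPlane.I, hE N g Fg hFg.1 γ UpperHalfPlane.I]
    ring
  · intro c f
    obtain ⟨Ff, hFf⟩ := hP N f
    have hsmul : IsPrim (⇑(c • f)) (fun z : ℍ => c * Ff z) := by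
      intro τ
      have h := (hFf.1 τ).const_mul c
      exact h
    apply AddMonoidHom.ext
    intro x
    obtain ⟨γ, rfl⟩ := Additive.ofMul.surjective x
    rw [AddMonoidHom.smul_apply, hE N (c • f) _ hsmul γ UpperHalfPlane.I,
      hE N f Ff hFf.1 γ UpperHalfPlane.I, smul_eq_mul]
    ring

end Fermat.Agent.S21.Primitive
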