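/-
S21 (Eichler–Shimura) from S20 — package `Top`: final assembly.

From linearity of the period map, parabolicity of period homomorphisms, injectivity of
`(u, v) ↦ pm u + ι (pm v)` and the dimension bound `dim Hom_par ≤ 2 * genusFormula N`, we deduce the
frozen statement S21 under the hypothesis `genusFormula N ≤ dim S₂(Γ₀(N))` (which is S20).
-/
import Fermat.Agent.S21.Interfaces

set_option autoImplicit false

open UpperHalfPlane CongruenceSubgroup ModularCurve ModularCurve.Period
open scoped MatrixGroups

namespace Fermat.Agent.S21.Top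

/-- The period map is linear: the prelude's `ExistsPeriodMapLinear`. -/
theorem existsPeriodMapLinear (hL : LinearStatement) (N : ℕ) [NeZero N] :
    ExistsPeriodMapLinear N :=
  ⟨{ toFun := periodMap N
     map_add' := (hL N).1
     map_smul' := fun c f => (hL N).2 c f }, fun _ => rfl⟩

/-- Explicit formula for `periodHomPair`. -/
theorem periodHomPair_apply (hL : LinearStatement) (N : ℕ) [NeZero N]
    (f g : CuspForm (Gamma0 N) 2) :
    periodHomPair N (f, g)
      = (periodMap N f + charInvolution N ℂ ℂ (periodMap N f))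
        + (periodMap N g - charInvolution N ℂ ℂ (periodMap N g)) := by
  obtain ⟨pml, hpml, hdef⟩ := periodHomPair_def N (existsPeriodMapLinear hL N)
  rw [hdef, LinearMap.coprod_apply]
  simp only [LinearMap.comp_apply, LinearMap.add_apply, LinearMap.sub_apply, LinearMap.id_apply,
    hpml]

theorem periodMap_sub (hL : LinearStatement) (N : ℕ) [NeZero N] (f g : CuspForm (Gamma0 N) 2) :
    periodMap N (f - g) = periodMap N f - periodMap N g := by
  have h1 : f - g = f + (-1 : ℂ) • g := by
    rw [neg_one_smul, sub_eq_add_neg]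
  rw [h1, (hL N).1, (hL N).2, neg_one_smul, sub_eq_add_neg]

theorem periodHomPair_injective (hL : LinearStatement) (hInj : InjStatement) (N : ℕ) [NeZero N] :
    Function.Injective (periodHomPair N) := by
  rw [injective_iff_map_eq_zero]
  rintro ⟨f, g⟩ h
  rw [periodHomPair_apply hL] at h
  have key : periodMap N (f + g) + charInvolution N ℂ ℂ (periodMap N (f - g)) = 0 := by
    rw [(hL N).1, periodMap_sub hL, map_sub, ← h]
    abel
  obtain ⟨h1, h2⟩ := hInj N (f + g) (f - g) key
  have hf : (2 : ℂ) • f = 0 := by
    have : (f + g) + (f - g) = 0 := by rw [h1, h2, add_zero]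
    rw [two_smul]
    rw [← this]
    abel
  have hf0 : f = 0 := by
    rcases smul_eq_zero.mp hf with h | h
    · exact absurd h two_ne_zero
    · exact h
  have hg0 : g = 0 := by
    rw [hf0, zero_add] at h1
    exact h1
  rw [hf0, hg0]
  rfl

theorem periodHomPair_mem (hL : LinearStatement) (hPar : ParabolicStatement) (N : ℕ) [NeZero N]
    (x : CuspForm (Gamma0 N) 2 × CuspForm (Gamma0 N) 2) :
    periodHomPair N x ∈ parabolicHoms ℂ (Gamma0 N) ℂ := by
  obtain ⟨f, g⟩ := x
  rw [periodHomPair_apply hL]
  exact Submodule.add_mem _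
    (Submodule.add_mem _ (hPar N f) (charInvolution_mem_parabolicHoms N ℂ ℂ (hPar N f)))
    (Submodule.sub_mem _ (hPar N g) (charInvolution_mem_parabolicHoms N ℂ ℂ (hPar N g)))

/-- Final assembly from the interface statements. -/
theorem s21_of_statements (hL : LinearStatement) (hPar : ParabolicStatement) (hInj : InjStatement)
    (hDim : DimStatement) (N : ℕ) [NeZero N]
    (hdim : ModularCurve.genusFormula N
      ≤ (Module.finrank ℂ (CuspForm (CongruenceSubgroup.Gamma0 N) 2) : ℚ)) :
    Function.Injective (ModularCurve.periodHomPair N)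
      ∧ LinearMap.range (ModularCurve.periodHomPair N)
          = ModularCurve.Period.parabolicHoms ℂ (CongruenceSubgroup.Gamma0 N) ℂ := by
  have hinj := periodHomPair_injective hL hInj N
  refine ⟨hinj, ?_⟩
  obtain ⟨hfin, hle⟩ := hDim N
  have hrange : LinearMap.range (periodHomPair N) ≤ parabolicHoms ℂ (Gamma0 N) ℂ := by
    rintro _ ⟨x, rfl⟩
    exact periodHomPair_mem hL hPar N x
  -- finite-dimensionality of the space of cusp forms
  have hfin2 : FiniteDimensional ℂ (CuspForm (Gamma0 N) 2 × CuspForm (Gamma0 N) 2) := by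
    let φ : (CuspForm (Gamma0 N) 2 × CuspForm (Gamma0 N) 2) →ₗ[ℂ] ↥(parabolicHoms ℂ (Gamma0 N) ℂ) :=
      LinearMap.codRestrict _ (periodHomPair N) (periodHomPair_mem hL hPar N)
    have hφ : Function.Injective φ := by
      intro x y hxy
      apply hinj
      exact congrArg Subtype.val hxy
    exact FiniteDimensional.of_injective φ hφ
  have hfin1 : FiniteDimensional ℂ (CuspForm (Gamma0 N) 2) :=
    FiniteDimensional.of_injective
      (LinearMap.inl ℂ (CuspForm (Gamma0 N) 2) (CuspForm (Gamma0 N) 2)) LinearMap.inl_injective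
  have h1 : Module.finrank ℂ (LinearMap.range (periodHomPair N))
      = Module.finrank ℂ (CuspForm (Gamma0 N) 2) + Module.finrank ℂ (CuspForm (Gamma0 N) 2) := by
    rw [LinearMap.finrank_range_of_inj hinj, Module.finrank_prod]
  have h2 : Module.finrank ℂ ↥(parabolicHoms ℂ (Gamma0 N) ℂ)
      ≤ Module.finrank ℂ (LinearMap.range (periodHomPair N)) := by
    rw [h1]
    have h3 : (Module.finrank ℂ ↥(parabolicHoms ℂ (Gamma0 N) ℂ) : ℚ)
        ≤ (Module.finrank ℂ (CuspForm (Gamma0 N) 2) : ℚ)
          + (Module.finrank ℂ (CuspForm (Gamma0 N) 2) : ℚ) := by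
      linarith
    exact_mod_cast h3
  exact Submodule.eq_of_le_of_finrank_le hrange h2

end Fermat.Agent.S21.Top
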