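/-
S21 package `TraceConj`: elements of `SL(2, ℤ)` of trace `±2` are conjugate to `± T ^ m`.

Pure integer-matrix algebra.  If the lower-left entry `c` of `γ` vanishes, then `γ = ± T ^ n`
directly.  Otherwise, with `ε = ±1` half of the trace, the vector `(ε - d, c)` is an eigenvector of
`γ` for the eigenvalue `ε`; dividing it by its gcd gives a coprime pair `(p, q)`, which is the first
column of some `δ ∈ SL(2, ℤ)`, and then `δ⁻¹ * γ * δ` has vanishing lower-left entry.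
-/
import Fermat.Agent.S21.Interfaces

set_option autoImplicit false

open scoped MatrixGroups

namespace Fermat.Agent.S21.TraceConj

open Matrix ModularGroup

/-- An element of `SL(2, ℤ)` with vanishing lower-left entry is `± T ^ n`. -/
theorem eq_T_zpow_or_neg_of_c_eq_zero (g : SL(2, ℤ)) (hc : g 1 0 = 0) :
    ∃ n : ℤ, g = T ^ n ∨ g = -T ^ n := by
  have had := g.det_coe
  replace had : g 0 0 * g 1 1 = 1 := by rw [det_fin_two, hc] at had; lia
  rcases Int.eq_one_or_neg_one_of_mul_eq_one' had with (⟨ha, hd⟩ | ⟨ha, hd⟩)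
  · refine ⟨g 0 1, Or.inl ?_⟩
    ext i j; fin_cases i <;> fin_cases j <;>
      simp [ha, hc, hd, coe_T_zpow, show (1 : Fin (0 + 2)) = (1 : Fin 2) from rfl]
  · refine ⟨-(g 0 1), Or.inr ?_⟩
    ext i j; fin_cases i <;> fin_cases j <;>
      simp [ha, hc, hd, coe_T_zpow, show (1 : Fin (0 + 2)) = (1 : Fin 2) from rfl]

/-- The lower-left entry of a conjugate `δ⁻¹ * γ * δ` in `SL(2, ℤ)`. -/
theorem conj_apply_one_zero (γ δ : SL(2, ℤ)) :
    (δ⁻¹ * γ * δ) 1 0 =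
      γ 1 0 * δ 0 0 ^ 2 + (γ 1 1 - γ 0 0) * δ 0 0 * δ 1 0 - γ 0 1 * δ 1 0 ^ 2 := by
  change (adjugate (δ : Matrix (Fin 2) (Fin 2) ℤ) * (γ : Matrix (Fin 2) (Fin 2) ℤ) *
    (δ : Matrix (Fin 2) (Fin 2) ℤ)) 1 0 = _
  rw [adjugate_fin_two]
  simp only [Matrix.mul_apply, Fin.sum_univ_two, Matrix.of_apply, Matrix.cons_val_zero,
    Matrix.cons_val_one]
  ring

/-- An element of `SL(2, ℤ)` of trace `±2` is conjugate to an element with vanishing lower-left
entry. -/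
theorem exists_conj_c_eq_zero (γ : SL(2, ℤ))
    (h : ((γ : Matrix (Fin 2) (Fin 2) ℤ).trace) ^ 2 = 4) :
    ∃ δ : SL(2, ℤ), (δ⁻¹ * γ * δ) 1 0 = 0 := by
  by_cases hc : γ 1 0 = 0
  · exact ⟨1, by simpa using hc⟩
  · have hdet := γ.det_coe
    rw [det_fin_two] at hdet
    rw [trace_fin_two] at h
    -- `ε = ±1` is half of the trace
    obtain ⟨ε, hε, htr⟩ : ∃ ε : ℤ, ε ^ 2 = 1 ∧ γ 0 0 + γ 1 1 = 2 * ε := by
      have h0 : (γ 0 0 + γ 1 1 - 2) * (γ 0 0 + γ 1 1 + 2) = 0 := by linear_combination h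
      rcases mul_eq_zero.mp h0 with h1 | h1
      · exact ⟨1, by norm_num, by linarith⟩
      · exact ⟨-1, by norm_num, by linarith⟩
    -- the eigenvector `(ε - d, c)` divided by its gcd
    have hpos : 0 < Int.gcd (ε - γ 1 1) (γ 1 0) :=
      Nat.pos_of_ne_zero fun h0 => hc (Int.gcd_eq_zero_iff.mp h0).2
    obtain ⟨p, q, hpq, hp, hq⟩ := Int.exists_gcd_one hpos
    have hg : (Int.gcd (ε - γ 1 1) (γ 1 0) : ℤ) ≠ 0 := by exact_mod_cast hpos.ne'
    obtain ⟨δ, hδ0, hδ1⟩ := (Int.isCoprime_iff_gcd_eq_one.mpr hpq).exists_SL2_col 0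
    refine ⟨δ, ?_⟩
    rw [conj_apply_one_zero, hδ0, hδ1]
    have hsq : (Int.gcd (ε - γ 1 1) (γ 1 0) : ℤ) ^ 2 ≠ 0 := pow_ne_zero 2 hg
    refine (mul_right_injective₀ hsq) ?_
    simp only [mul_zero]
    set G : ℤ := (Int.gcd (ε - γ 1 1) (γ 1 0) : ℤ) with hG
    have e1 : G ^ 2 * (γ 1 0 * p ^ 2 + (γ 1 1 - γ 0 0) * p * q - γ 0 1 * q ^ 2) =
        γ 1 0 * (p * G) ^ 2 + (γ 1 1 - γ 0 0) * (p * G) * (q * G) - γ 0 1 * (q * G) ^ 2 := by
      ring
    rw [e1, ← hp, ← hq]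
    linear_combination (γ 1 0) * hdet - (γ 1 0) * ε * htr - (γ 1 0) * hε

/-- (T) Elements of `SL(2, ℤ)` of trace `±2` are conjugate to `± T ^ m`. -/
theorem traceConjStatement : Fermat.Agent.S21.TraceConjStatement := by
  intro γ h
  obtain ⟨δ, hδ⟩ := exists_conj_c_eq_zero γ h
  obtain ⟨n, hn⟩ := eq_T_zpow_or_neg_of_c_eq_zero _ hδ
  refine ⟨δ, n, ?_⟩
  have key : γ = δ * (δ⁻¹ * γ * δ) * δ⁻¹ := by group
  rcases hn with hn | hn
  · left
    rw [← hn]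
    exact key
  · right
    rw [hn] at key
    rw [key, mul_neg, neg_mul]

end Fermat.Agent.S21.TraceConj
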