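/-
S21 (Eichler–Shimura) from S20 — package `Main`: wiring of all S21 packages.

`s21_of_dim` is the frozen statement S21 under the single hypothesis
`genusFormula N ≤ dim S₂(Γ₀(N))` (one half of S20).
-/
import Fermat.Agent.S21.Top
import Fermat.Agent.S21.PrimExists
import Fermat.Agent.S21.PrimSlash
import Fermat.Agent.S21.PrimConj
import Fermat.Agent.S21.CuspSlash
import Fermat.Agent.S21.Primitive
import Fermat.Agent.S21.TraceConj
import Fermat.Agent.S21.Parabolic
import Fermat.Agent.S21.MaxMod
import Fermat.Agent.S21.InjB
import Fermat.Agent.S21.LinAlg
import Fermat.Agent.S21.Cocycle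
import Fermat.Agent.S21.OrbitBound

set_option autoImplicit false

namespace Fermat.Agent.S21

/-- Every weight-2 cusp form of level `Γ₀(N)` has an equivariant primitive. -/
theorem primitiveStatement : PrimitiveStatement :=
  Primitive.primitiveStatement PrimExists.primExistsStatement PrimSlash.primConstStatement
    PrimSlash.primSlashStatement CuspSlash.cuspSlashStatement

/-- The period map can be computed with any primitive and any base point. -/
theorem periodMapEqStatement : PeriodMapEqStatement :=
  Primitive.periodMapEqStatement primitiveStatement PrimSlash.primConstStatement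

/-- The period map is linear. -/
theorem linearStatement : LinearStatement :=
  Primitive.linearStatement primitiveStatement periodMapEqStatement

/-- Period homomorphisms are parabolic. -/
theorem parabolicStatement : ParabolicStatement :=
  Parabolic.parabolicStatement primitiveStatement periodMapEqStatement TraceConj.traceConjStatement

/-- Injectivity of `(u, v) ↦ pm u + ι (pm v)`. -/
theorem injStatement : InjStatement :=
  InjB.injStatement primitiveStatement periodMapEqStatement parabolicStatement
    MaxMod.maxModStatement PrimConj.primConjStatement PrimConj.jzStatement

/-- `dim Hom_par(Γ₀(N), ℂ) ≤ 2 * genusFormula N`. -/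
theorem dimStatement : DimStatement :=
  OrbitBound.dimStatement LinAlg.linAlgStatement Cocycle.cocycleStatement

/-- Eichler–Shimura for weight 2 and level `Γ₀(N)`, assuming `genusFormula N ≤ dim S₂(Γ₀(N))`. -/
theorem s21_of_dim (N : ℕ) [NeZero N]
    (hdim : ModularCurve.genusFormula N
      ≤ (Module.finrank ℂ (CuspForm (CongruenceSubgroup.Gamma0 N) 2) : ℚ)) :
    Function.Injective (ModularCurve.periodHomPair N)
      ∧ LinearMap.range (ModularCurve.periodHomPair N)
          = ModularCurve.Period.parabolicHoms ℂ (CongruenceSubgroup.Gamma0 N) ℂ :=
  Top.s21_of_statements linearStatement parabolicStatement injStatement dimStatement N hdim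

end Fermat.Agent.S21
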