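/-
S21 package `Cocycle`: Shapiro's lemma by hand.

For a group `G = ⟨S, T⟩`, a subgroup `Γ` and a conjugation-stable set `Par`, every homomorphism
`ψ : Γ → ℂ` vanishing on `Γ ∩ Par` gives rise to a cocycle `c_ψ : G → (G ⧸ Γ → ℂ)`; the pair
`(c_ψ S, c_ψ T)` lies in `cocyclePairs S T n`, depends linearly and injectively on `ψ`, and is
never a nonzero coboundary pair.
-/
import Fermat.Agent.S21.Interfaces

set_option autoImplicit false

namespace Fermat.Agent.S21.Cocycle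

noncomputable section

variable {G : Type} [Group G] (Γ : Subgroup G)

/-- A representative of the coset `x`. -/
def rep (x : G ⧸ Γ) : G := Quotient.out x

theorem rep_spec (x : G ⧸ Γ) : ((rep Γ x : G) : G ⧸ Γ) = x := QuotientGroup.out_eq' x

theorem smul_coe (g h : G) : g • ((h : G) : G ⧸ Γ) = ((g * h : G) : G ⧸ Γ) := rfl

/-- The `Γ`-valued cocycle `κ g x = (r (g • x))⁻¹ * g * r x`. -/
def kap (g : G) (x : G ⧸ Γ) : G := (rep Γ (g • x))⁻¹ * g * rep Γ x

theorem kap_mem (g : G) (x : G ⧸ Γ) : kap Γ g x ∈ Γ := by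
  have h : ((rep Γ (g • x) : G) : G ⧸ Γ) = ((g * rep Γ x : G) : G ⧸ Γ) := by
    rw [rep_spec, ← smul_coe, rep_spec]
  have h2 := QuotientGroup.eq.mp h
  rw [← mul_assoc] at h2
  exact h2

theorem kap_mul (g h : G) (x : G ⧸ Γ) : kap Γ (g * h) x = kap Γ g (h • x) * kap Γ h x := by
  simp only [kap, mul_smul]
  group

theorem kap_one (x : G ⧸ Γ) : kap Γ 1 x = 1 := by
  simp only [kap, one_smul]
  group

/-- The cocycle `c_ψ g x = ψ (κ g x)`. -/
def coc (ψ : Additive Γ →+ ℂ) (g : G) : (G ⧸ Γ) → ℂ :=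
  fun x => ψ (Additive.ofMul ⟨kap Γ g x, kap_mem Γ g x⟩)

theorem coc_apply (ψ : Additive Γ →+ ℂ) (g : G) (x : G ⧸ Γ) :
    coc Γ ψ g x = ψ (Additive.ofMul ⟨kap Γ g x, kap_mem Γ g x⟩) := rfl

theorem permOp_apply (g : G) (v : G ⧸ Γ → ℂ) (x : G ⧸ Γ) : permOp g v x = v (g • x) := rfl

theorem coc_mul (ψ : Additive Γ →+ ℂ) (g h : G) :
    coc Γ ψ (g * h) = permOp h (coc Γ ψ g) + coc Γ ψ h := by
  funext x
  rw [Pi.add_apply, permOp_apply, coc_apply, coc_apply, coc_apply, ← map_add, ← ofMul_mul]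
  congr 2
  exact Subtype.ext (kap_mul Γ g h x)

theorem coc_one (ψ : Additive Γ →+ ℂ) : coc Γ ψ 1 = 0 := by
  funext x
  rw [coc_apply, Pi.zero_apply]
  have h : (⟨kap Γ 1 x, kap_mem Γ 1 x⟩ : Γ) = 1 := Subtype.ext (kap_one Γ x)
  rw [h, ofMul_one, map_zero]

theorem coc_pow (ψ : Additive Γ →+ ℂ) (g : G) (m : ℕ) :
    coc Γ ψ (g ^ m) = normOp g m (coc Γ ψ g) := by
  induction m with
  | zero => simp [normOp, coc_one]
  | succ m ih =>
    rw [pow_succ', coc_mul, ih]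
    simp only [normOp, Finset.sum_range_succ, LinearMap.add_apply]
    rw [add_comm]

theorem coc_add (φ ψ : Additive Γ →+ ℂ) (g : G) :
    coc Γ (φ + ψ) g = coc Γ φ g + coc Γ ψ g := rfl

theorem coc_smul (c : ℂ) (ψ : Additive Γ →+ ℂ) (g : G) :
    coc Γ (c • ψ) g = c • coc Γ ψ g := rfl

/-- An element all of whose conjugates lie in `Γ` fixes every coset. -/
theorem smul_eq_self_of_conj_mem (p : G) (hp : ∀ g : G, g⁻¹ * p * g ∈ Γ) (x : G ⧸ Γ) :
    p • x = x := by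
  have h : p • ((rep Γ x : G) : G ⧸ Γ) = ((rep Γ x : G) : G ⧸ Γ) := by
    rw [smul_coe]
    symm
    rw [QuotientGroup.eq, ← mul_assoc]
    exact hp _
  rw [rep_spec] at h
  exact h

/-- The cocycle of a parabolic homomorphism vanishes at elements of `Par` acting trivially. -/
theorem coc_eq_zero_of_fix (ψ : Additive Γ →+ ℂ) (Par : Set G) (hψ : ψ ∈ parHoms Γ Par)
    (hPar : ∀ g p : G, p ∈ Par → g⁻¹ * p * g ∈ Par) (p : G) (hp : p ∈ Par)
    (hfix : ∀ x : G ⧸ Γ, p • x = x) : coc Γ ψ p = 0 := by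
  funext x
  rw [coc_apply, Pi.zero_apply]
  apply hψ
  show kap Γ p x ∈ Par
  unfold kap
  rw [hfix x]
  exact hPar _ _ hp

/-- A cocycle `c_ψ` whose values at the generators `S`, `T` are those of a coboundary comes from
`ψ = 0`. -/
theorem eq_zero_of_coboundary (S T : G) (hgen : Subgroup.closure {S, T} = ⊤)
    (ψ : Additive Γ →+ ℂ) (v : G ⧸ Γ → ℂ)
    (hS : coc Γ ψ S = (permOp S - 1) v) (hT : coc Γ ψ T = (permOp T - 1) v) : ψ = 0 := by
  have key : ∀ g : G, coc Γ ψ g = (permOp g - 1) v := by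
    intro g
    have hg : g ∈ Subgroup.closure {S, T} := by rw [hgen]; trivial
    induction hg using Subgroup.closure_induction with
    | mem x hx =>
      rcases hx with rfl | rfl
      · exact hS
      · exact hT
    | one =>
      rw [coc_one]
      funext x
      simp [permOp_apply]
    | mul x y _ _ hx hy =>
      rw [coc_mul, hx, hy]
      funext z
      simp [permOp_apply, mul_smul]
    | inv x _ hx =>
      have h1 := coc_mul Γ ψ x x⁻¹
      rw [mul_inv_cancel, coc_one, hx] at h1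
      funext z
      have h2 := congrFun h1 z
      simp only [Pi.zero_apply, Pi.add_apply, permOp_apply, LinearMap.sub_apply,
        Module.End.one_apply, Pi.sub_apply, smul_inv_smul] at h2 ⊢
      linear_combination (-1 : ℂ) * h2
  -- evaluate at the base coset
  have hrep : rep Γ ((1 : G) : G ⧸ Γ) ∈ Γ := by
    have h := QuotientGroup.eq.mp (rep_spec Γ ((1 : G) : G ⧸ Γ))
    rw [mul_one] at h
    exact (Subgroup.inv_mem_iff Γ).mp h
  have hfix : ∀ γ : Γ, (γ : G) • (((1 : G) : G ⧸ Γ)) = ((1 : G) : G ⧸ Γ) := by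
    intro γ
    rw [smul_coe, mul_one]
    symm
    rw [QuotientGroup.eq, inv_one, one_mul]
    exact γ.2
  ext γ
  have h1 := congrFun (key (γ : G)) ((1 : G) : G ⧸ Γ)
  rw [coc_apply] at h1
  simp only [permOp_apply, LinearMap.sub_apply, Module.End.one_apply, Pi.sub_apply, hfix γ,
    sub_self] at h1
  have h2 : (⟨kap Γ (γ : G) ((1 : G) : G ⧸ Γ), kap_mem Γ (γ : G) ((1 : G) : G ⧸ Γ)⟩ : Γ)
      = (⟨rep Γ ((1 : G) : G ⧸ Γ), hrep⟩ : Γ)⁻¹ * γ * ⟨rep Γ ((1 : G) : G ⧸ Γ), hrep⟩ := by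
    apply Subtype.ext
    show kap Γ (γ : G) ((1 : G) : G ⧸ Γ) = _
    unfold kap
    rw [hfix γ]
    rfl
  rw [h2, ofMul_mul, ofMul_mul, ofMul_inv, map_add, map_add, map_neg] at h1
  show ψ (Additive.ofMul γ) = 0
  linear_combination h1

/-- The map `Θ ψ = (c_ψ S, c_ψ T)`. -/
def theta (S T : G) (Par : Set G) :
    ↥(parHoms Γ Par) →ₗ[ℂ] ((G ⧸ Γ → ℂ) × (G ⧸ Γ → ℂ)) where
  toFun ψ := (coc Γ ψ.1 S, coc Γ ψ.1 T)
  map_add' := by
    intro φ ψ
    rfl
  map_smul' := by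
    intro c ψ
    rfl

theorem theta_apply (S T : G) (Par : Set G) (ψ : ↥(parHoms Γ Par)) :
    theta Γ S T Par ψ = (coc Γ ψ.1 S, coc Γ ψ.1 T) := rfl

end

/-- (C-coc) Shapiro-type cocycle attached to a parabolic homomorphism. -/
theorem cocycleStatement : CocycleStatement := by
  intro G _ Γ S T n Par hgen hcent hS2Γ hS2Par hST hPar hTnPar hTnΓ
  have fixS : ∀ x : G ⧸ Γ, S ^ 2 • x = x :=
    smul_eq_self_of_conj_mem Γ (S ^ 2) (fun g => by
      rw [mul_assoc, ← hcent g, inv_mul_cancel_left]; exact hS2Γ)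
  have fixT : ∀ x : G ⧸ Γ, T ^ n • x = x := smul_eq_self_of_conj_mem Γ (T ^ n) hTnΓ
  refine ⟨theta Γ S T Par, ?_, ?_, ?_⟩
  · rw [injective_iff_map_eq_zero]
    intro ψ hψ
    have h := Prod.ext_iff.mp hψ
    apply Subtype.ext
    refine eq_zero_of_coboundary Γ S T hgen ψ.1 0 ?_ ?_
    · rw [map_zero]; exact h.1
    · rw [map_zero]; exact h.2
  · rintro _ ⟨ψ, rfl⟩
    have hS2 : coc Γ ψ.1 (S ^ 2) = 0 :=
      coc_eq_zero_of_fix Γ ψ.1 Par ψ.2 hPar (S ^ 2) hS2Par fixS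
    have hTn : coc Γ ψ.1 (T ^ n) = 0 :=
      coc_eq_zero_of_fix Γ ψ.1 Par ψ.2 hPar (T ^ n) hTnPar fixT
    refine ⟨⟨?_, ?_⟩, ?_⟩
    · show normOp S 2 (coc Γ ψ.1 S) = 0
      rw [← coc_pow, hS2]
    · show normOp T n (coc Γ ψ.1 T) = 0
      rw [← coc_pow, hTn]
    · show normOp (S * T) 3 (permOp T (coc Γ ψ.1 S) + coc Γ ψ.1 T) = 0
      rw [← coc_mul, ← coc_pow, hST, hS2]
  · rw [Submodule.disjoint_def]
    rintro _ ⟨ψ, rfl⟩ ⟨v, hv⟩
    have h := Prod.ext_iff.mp hv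
    have h0 : ψ.1 = 0 := eq_zero_of_coboundary Γ S T hgen ψ.1 v h.1.symm h.2.symm
    have hψ : ψ = 0 := Subtype.ext h0
    rw [hψ, map_zero]

end Fermat.Agent.S21.Cocycle
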